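/-
Cluster G (S36), bridge, port P-a (helper86): `κ` AND `α_*` AT ANY LEVEL `N₀ q`
(in particular for `q ∣ N₀`, which is what S36 needs: `M = q² M₀`, `N₀ = q M₀`).

The landed `F3Deg.kappaC_pushAlpha` assumes `q` prime and `¬ q ∣ N₀` only because it uses the
explicit `q + 1` coset representatives `LDeg.coresRep`.  Here the representatives are ARBITRARY:
`RCos f` = right cosets of the image of an injective `f : H →* G` of finite index,
`rcRep = Quotient.out`, `rcW f : WreathHom G H (RCos f)` (`WreathHom.ofUnique`).  With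
`f = L.incl N₀ q : Γ₀(N₀ q) → Γ₀(N₀)` everything of `F3/I2/Deg/{NormFun, ThetaPush, KappaPush,
Canon}` goes through verbatim, with NO hypothesis on `N₀`, `q`:

  `kappaC_pushAlpha_gen : pushAlpha N₀ q (κ_n c) = κ_n (coresPar N₀ q c)`.
-/
import Mathlib
import Fermat.Agent.F3.I2.Deg.Canon

set_option autoImplicit false
set_option linter.style.haveILetI false
set_option linter.unusedSectionVars false

noncomputable section

namespace Fermat.Agent.S36B

open UpperHalfPlane CongruenceSubgroup ModularCurve AlgebraicCurve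
open Fermat.Agent.F3Dict Fermat.Agent.F3Dict.EmbFHom Fermat.Agent.F3Ratio
  Fermat.Agent.F3RatioCusp Fermat.Agent.F3I2 Fermat.Agent.S23 Fermat.Agent.LDeg
  Fermat.Agent.F3Deg Fermat.Agent.F3EC Fermat.Agent.RR
open scoped MatrixGroups ModularForm Manifold

/-! ### the wreath hom of an arbitrary system of right coset representatives -/

section Generic

variable {G H : Type*} [Group G] [Group H] (f : H →* G)

/-- the right cosets of the image of `f`. -/
abbrev RCos : Type _ := Quotient (QuotientGroup.rightRel f.range)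

/-- a representative of a right coset. -/
def rcRep (i : RCos f) : G := Quotient.out i

theorem rcRep_mk (i : RCos f) : (Quotient.mk'' (rcRep f i) : RCos f) = i := Quotient.out_eq' i

theorem rc_hex (γ : G) (i : RCos f) :
    ∃ (j : RCos f) (n : H), rcRep f i * (MonoidHom.id G) γ = f n * rcRep f j := by
  refine ⟨Quotient.mk'' (rcRep f i * γ), ?_⟩
  have h : QuotientGroup.rightRel f.range
      (rcRep f (Quotient.mk'' (rcRep f i * γ))) (rcRep f i * γ) :=
    Quotient.exact' (rcRep_mk f _)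
  rw [QuotientGroup.rightRel_apply] at h
  obtain ⟨n, hn⟩ := h
  refine ⟨n, ?_⟩
  rw [hn, MonoidHom.id_apply, inv_mul_cancel_right]

theorem rc_distinct : CosetsDistinct f (rcRep f) := by
  intro i j n h
  have h1 : QuotientGroup.rightRel f.range (rcRep f j) (rcRep f i) := by
    rw [QuotientGroup.rightRel_apply]
    exact ⟨n, by rw [h, mul_inv_cancel_right]⟩
  have h2 : (Quotient.mk'' (rcRep f j) : RCos f) = Quotient.mk'' (rcRep f i) :=
    Quotient.sound' h1
  rw [rcRep_mk, rcRep_mk] at h2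
  exact h2.symm

/-- the wreath hom of the representatives `rcRep`. -/
def rcW (hf : Function.Injective f) : WreathHom G H (RCos f) :=
  WreathHom.ofUnique (rc_hex f) hf (rc_distinct f)

theorem rcW_realizes (hf : Function.Injective f) :
    (rcW f hf).Realizes (MonoidHom.id G) f (rcRep f) :=
  WreathHom.ofUnique_realizes (rc_hex f) hf (rc_distinct f)

instance instNonemptyRCos : Nonempty (RCos f) := ⟨Quotient.mk'' 1⟩

/-- the right cosets of a subgroup of finite index are a finite type. -/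
@[reducible] def fintypeRCos [f.range.FiniteIndex] : Fintype (RCos f) := by
  haveI : Finite (G ⧸ f.range) := Subgroup.finite_quotient_of_finiteIndex
  haveI : Finite (RCos f) :=
    Finite.of_equiv _ (QuotientGroup.quotientRightRelEquivQuotientLeftRel f.range).symm
  exact Fintype.ofFinite _

end Generic

/-! ### the level `N₀ q` -/

section Level

variable (N₀ q : ℕ) [NeZero N₀] [NeZero q]

instance instNeZeroMulPA : NeZero (N₀ * q) := ⟨Nat.mul_ne_zero (NeZero.ne N₀) (NeZero.ne q)⟩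

theorem range_incl_eq :
    (Fermat.Agent.L.incl N₀ q).range = (Gamma0 (N₀ * q)).subgroupOf (Gamma0 N₀) :=
  Subgroup.inclusion_range _

instance instFiniteIndexInclPA : (Fermat.Agent.L.incl N₀ q).range.FiniteIndex := by
  rw [range_incl_eq]
  infer_instance

/-- the index set: the right cosets of `Γ₀(N₀ q)` in `Γ₀(N₀)`. -/
abbrev IdxA : Type := RCos (Fermat.Agent.L.incl N₀ q)

instance instFintypeIdxA : Fintype (IdxA N₀ q) := fintypeRCos (Fermat.Agent.L.incl N₀ q)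

/-- the wreath hom of `Γ₀(N₀ q) ⊂ Γ₀(N₀)`. -/
def coresWA : WreathHom ↥(Gamma0 N₀) ↥(Gamma0 (N₀ * q)) (IdxA N₀ q) :=
  rcW (Fermat.Agent.L.incl N₀ q) (incl_injective N₀ q)

theorem coresWA_realizes :
    (coresWA N₀ q).Realizes (MonoidHom.id (Gamma0 N₀)) (Fermat.Agent.L.incl N₀ q)
      (rcRep (Fermat.Agent.L.incl N₀ q)) :=
  rcW_realizes _ _

/-- the representatives as elements of `SL(2,ℤ)`. -/
def repA (i : IdxA N₀ q) : SL(2, ℤ) :=
  ((rcRep (Fermat.Agent.L.incl N₀ q) i : ↥(Gamma0 N₀)) : SL(2, ℤ))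

theorem repA_mem (i : IdxA N₀ q) : repA N₀ q i ∈ Gamma0 N₀ :=
  (rcRep (Fermat.Agent.L.incl N₀ q) i).2

theorem repA_mul (γ : ↥(Gamma0 N₀)) (i : IdxA N₀ q) :
    repA N₀ q i * (γ : SL(2, ℤ)) =
      (((coresWA N₀ q).elt γ i : ↥(Gamma0 (N₀ * q))) : SL(2, ℤ)) *
        repA N₀ q ((coresWA N₀ q).perm γ i) := by
  have h := coresWA_realizes N₀ q γ i
  exact congrArg (fun z : ↥(Gamma0 N₀) => (z : SL(2, ℤ))) h

theorem card_idxA : Fintype.card (IdxA N₀ q) = (Fermat.Agent.L.incl N₀ q).range.index :=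
  (index_range_of_realizes (coresWA_realizes N₀ q) (rc_distinct _)).symm

theorem card_idxA_mul_index :
    Fintype.card (IdxA N₀ q) * (Gamma0 N₀).index = (Gamma0 (N₀ * q)).index := by
  rw [card_idxA, range_incl_eq]
  exact Subgroup.relIndex_mul_index (Fermat.Agent.L.Gamma0_mul_le N₀ q)

/-- The corestriction along `incl` is the operator of `coresWA`. -/
theorem coresAll_eq_opA (A : Type*) [AddCommGroup A]
    (c : Additive (Gamma0 (N₀ * q)) →+ A) :
    Fermat.Agent.L.coresAll N₀ q A c = (coresWA N₀ q).op A c :=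
  coresFun_eq_op (Fermat.Agent.L.incl N₀ q) (incl_injective N₀ q) (coresWA N₀ q)
    (rcRep (Fermat.Agent.L.incl N₀ q)) (coresWA_realizes N₀ q) (rc_distinct _) A c

/-- **Degree**: `[F_{N₀ q} : F_{N₀}] = [Γ₀(N₀) : Γ₀(N₀ q)]`. -/
theorem finrank_heckeAlphaBar_gen :
    letI := (heckeAlphaBar ℂ N₀ q).toRingHom.toAlgebra
    FiniteDimensional ↥(Fermat.Agent.F3Dict.FC N₀) ↥(Fermat.Agent.F3Dict.FC (N₀ * q)) ∧
      Module.finrank ↥(Fermat.Agent.F3Dict.FC N₀) ↥(Fermat.Agent.F3Dict.FC (N₀ * q))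
        = Fintype.card (IdxA N₀ q) := by
  have hj : embHom N₀ (N₀ * q) (dvd_mul_right N₀ q) (jBar N₀) = jLL (N₀ * q) :=
    embHom_jq N₀ (N₀ * q) (dvd_mul_right N₀ q) (jBar N₀) rfl
  obtain ⟨hfd, hrank⟩ := Fermat.Agent.Kronecker.finrank_hom_mul_index_eq_index (Γ := SL(2, ℤ))
    (embHom N₀ (N₀ * q) (dvd_mul_right N₀ q)) (embHom (N₀ * q) (N₀ * q) dvd_rfl)
    (heckeAlphaBar ℂ N₀ q) (Fermat.Agent.KroneckerC.embHom_heckeAlphaBar N₀ q)
    (jBar N₀) (exists_finiteIndex_fixing (N₀ * q))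
    (fun g => by rw [hj]; exact smul_jLL (N₀ * q) g)
    (fun x hx => by
      rw [hj]; exact Fermat.Agent.F3DictInv.mem_adjoin_jLL_of_invariant' (N₀ * q) x hx)
    (CongruenceSubgroup.Gamma0 N₀) (CongruenceSubgroup.Gamma0 (N₀ * q))
    (Fermat.Agent.KroneckerC.mem_Gamma0_iff_smul_embHom N₀ (N₀ * q) (dvd_mul_right N₀ q))
    (Fermat.Agent.KroneckerC.mem_Gamma0_iff_smul_embHom (N₀ * q) (N₀ * q) dvd_rfl)
  refine ⟨hfd, ?_⟩
  rw [← card_idxA_mul_index] at hrank
  have hpos : 0 < (Gamma0 N₀).index := Nat.pos_of_ne_zero Subgroup.FiniteIndex.index_ne_zero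
  exact Nat.eq_of_mul_eq_mul_right hpos hrank

variable {N₀ q}

/-- **The norm along `α` is the product of the conjugates** `rᵢ⁻¹ • x` in `LL (N₀ q)`. -/
theorem embHom_norm_alpha_gen (x : ↥(F3I2.FC (N₀ * q))) :
    embHom N₀ (N₀ * q) (dvd_mul_right N₀ q)
        (Fermat.Agent.F3G.normAlong (heckeAlphaBar ℂ N₀ q) x)
      = ∏ i : IdxA N₀ q, (repA N₀ q i)⁻¹ • embHom (N₀ * q) (N₀ * q) dvd_rfl x := by
  obtain ⟨hfd, hrank⟩ := finrank_heckeAlphaBar_gen N₀ q
  refine Fermat.Agent.Kronecker.norm_hom_eq_prod_smul (Γ := SL(2, ℤ))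
    (embHom N₀ (N₀ * q) (dvd_mul_right N₀ q)) (embHom (N₀ * q) (N₀ * q) dvd_rfl)
    (heckeAlphaBar ℂ N₀ q) (Fermat.Agent.KroneckerC.embHom_heckeAlphaBar N₀ q) hfd
    (fun i => (repA N₀ q i)⁻¹) (fun i y => ?_) (fun i j hij => ?_) ?_ x
  · exact (Fermat.Agent.KroneckerC.mem_Gamma0_iff_smul_embHom N₀ (N₀ * q) (dvd_mul_right N₀ q)
      _).mp (inv_mem (repA_mem N₀ q i)) y
  · have hmem : repA N₀ q j * (repA N₀ q i)⁻¹ ∈ Gamma0 (N₀ * q) := by
      rw [Fermat.Agent.KroneckerC.mem_Gamma0_iff_smul_embHom (N₀ * q) (N₀ * q) dvd_rfl]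
      intro y
      rw [mul_smul, hij y, smul_inv_smul]
    have h1 : rcRep (Fermat.Agent.L.incl N₀ q) j =
        Fermat.Agent.L.incl N₀ q ⟨_, hmem⟩ * rcRep (Fermat.Agent.L.incl N₀ q) i := by
      apply Subtype.ext
      show repA N₀ q j = repA N₀ q j * (repA N₀ q i)⁻¹ * repA N₀ q i
      rw [inv_mul_cancel_right]
    exact (rc_distinct (Fermat.Agent.L.incl N₀ q) j i _ h1).symm
  · rw [hrank]

/-- **(Dα-C), the analytic core, any level**: if `x = f / g` on `Γ₀(N₀ q)` then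
`Norm_α x = ∏ᵢ (f ∣ rᵢ) / ∏ᵢ (g ∣ rᵢ)` on `Γ₀(N₀)`. -/
theorem isRatioF_norm_alpha_gen {w : ℤ}
    {x : ↥(F3I2.FC (N₀ * q))} {f g : ℍ → ℂ}
    (hf : IsMF (G0 (N₀ * q)) w f) (hg : IsMF (G0 (N₀ * q)) w g)
    (h : IsRatioF (N₀ * q) x f g) :
    IsRatioF N₀ (Fermat.Agent.F3G.normAlong (heckeAlphaBar ℂ N₀ q) x)
      (∏ i : IdxA N₀ q, f ∣[w] repA N₀ q i)
      (∏ i : IdxA N₀ q, g ∣[w] repA N₀ q i) := by
  obtain ⟨A, rfl⟩ := hf
  obtain ⟨B, rfl⟩ := hg
  obtain ⟨hg0, -, hqe⟩ := h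
  have hB0 : B ≠ 0 := by
    rintro rfl
    exact hg0 rfl
  have hAB : F3I2.IsRatio (N₀ * q) x A B := ⟨hB0, hqe⟩
  -- the forms at level `N₀`
  have hFA := IsFormChar.wreathProd (isFormChar_of_modularForm A) (coresWA N₀ q)
    (repA N₀ q) (repA_mul N₀ q)
  have hFB := IsFormChar.wreathProd (isFormChar_of_modularForm B) (coresWA N₀ q)
    (repA N₀ q) (repA_mul N₀ q)
  rw [wreathChar_one] at hFA hFB
  obtain ⟨A', hA'⟩ := hFA.exists_modularForm
  obtain ⟨B', hB'⟩ := hFB.exists_modularForm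
  have hB'0 : B' ≠ 0 := by
    rintro rfl
    exact wreathProd_ne_zero (w := w) (ModularFormClass.holo B) hg0 (repA N₀ q) hB'.symm
  -- the function field side
  obtain ⟨a, b, hb, hab⟩ := IsFractionRing.div_surjective (A := AL (N₀ * q))
    (embHom (N₀ * q) (N₀ * q) dvd_rfl x)
  have hb0 : b ≠ 0 := nonZeroDivisors.ne_zero hb
  have hbL : algebraMap (AL (N₀ * q)) (LL (N₀ * q)) b ≠ 0 := by
    intro h0
    exact hb0 ((IsFractionRing.injective (AL (N₀ * q)) (LL (N₀ * q))) (by rw [h0, map_zero]))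
  have hx : embHom (N₀ * q) (N₀ * q) dvd_rfl x * algebraMap (AL (N₀ * q)) (LL (N₀ * q)) b
      = algebraMap (AL (N₀ * q)) (LL (N₀ * q)) a := by
    rw [← hab, div_mul_cancel₀ _ hbL]
  have hmul := mul_eq_mul_of_isRatio dvd_rfl x A B hAB a b hx
  set a' : AL (N₀ * q) := ∏ i : IdxA N₀ q, (repA N₀ q i)⁻¹ • a with ha'
  set b' : AL (N₀ * q) := ∏ i : IdxA N₀ q, (repA N₀ q i)⁻¹ • b with hb'
  have hb'0 : b' ≠ 0 := by
    rw [hb', Finset.prod_ne_zero_iff]
    intro i _ h0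
    apply hb0
    have := congrArg (fun f => (repA N₀ q i) • f) h0
    simpa using this
  have hx' : embHom N₀ (N₀ * q) (dvd_mul_right N₀ q)
        (Fermat.Agent.F3G.normAlong (heckeAlphaBar ℂ N₀ q) x) *
          algebraMap (AL (N₀ * q)) (LL (N₀ * q)) b'
      = algebraMap (AL (N₀ * q)) (LL (N₀ * q)) a' := by
    rw [embHom_norm_alpha_gen x, ha', hb', map_prod, map_prod, ← Finset.prod_mul_distrib]
    refine Finset.prod_congr rfl fun i _ => ?_
    rw [← LL.smul_algebraMap, ← LL.smul_algebraMap, ← smul_mul', hx]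
  have hmul' : mfFun A' * (b' : Fun) = mfFun B' * (a' : Fun) := by
    have e1 : mfFun A' = ∏ i : IdxA N₀ q, slFun A (repA N₀ q i) := by
      ext τ
      rw [mfFun_apply, hA', Finset.prod_apply, fun_prod_apply]
      rfl
    have e2 : mfFun B' = ∏ i : IdxA N₀ q, slFun B (repA N₀ q i) := by
      ext τ
      rw [mfFun_apply, hB', Finset.prod_apply, fun_prod_apply]
      rfl
    rw [e1, e2, ha', hb', coe_prod_AL, coe_prod_AL, ← Finset.prod_mul_distrib,
      ← Finset.prod_mul_distrib]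
    refine Finset.prod_congr rfl fun i _ => ?_
    have h1 := slFun_mul_smul_eq A B a b hmul (repA N₀ q i)⁻¹
    rwa [inv_inv] at h1
  have hfin := (isRatio_of_mul_eq_mul (dvd_mul_right N₀ q) _ A' B' hB'0 a' b' hb'0 hx'
    hmul').isRatioF
  rwa [hA', hB'] at hfin

/-- **`IsTheta` and `α_*`, any level.** -/
theorem isTheta_pushAlpha_gen {n : ℕ}
    {χ : ↥(Gamma0 (N₀ * q)) →* ℂˣ} {c : Pic0 ℂ (Fermat.Agent.F3I2.FC (N₀ * q))}
    (h : IsTheta (N₀ * q) n χ c) :
    IsTheta N₀ n (wreathChar (coresWA N₀ q) χ)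
      (pushAlphaAlong ℂ N₀ q (Fermat.Agent.HeckeInputs.hi_heckeInputsAlong_complex N₀ q) c) := by
  obtain ⟨hχ, w, f, B, x, D, hf, hB, hf0, hB0, hr, hD, rfl⟩ := h
  set hH := Fermat.Agent.HeckeInputs.hi_heckeInputsAlong_complex N₀ q with hHdef
  have hf' := IsFormChar.wreathProd hf (coresWA N₀ q) (repA N₀ q) (repA_mul N₀ q)
  have hB' := IsFormChar.wreathProd hB (coresWA N₀ q) (repA N₀ q) (repA_mul N₀ q)
  rw [wreathChar_one] at hB'
  refine ⟨wreathChar_pow_eq_one _ hχ, _, _, _,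
    Fermat.Agent.F3G.normAlong (heckeAlphaBar ℂ N₀ q) x,
    pushDegZero (heckeAlphaBar ℂ N₀ q) hH.fst D, hf', hB',
    wreathProd_ne_zero hf.mdiff hf0 _, wreathProd_ne_zero hB.mdiff hB0 _, ?_, ?_, rfl⟩
  · have hfm : IsMF (G0 (N₀ * q)) ((n : ℤ) * w) (f ^ n) := hf.pow_isMF hχ
    have hBm : IsMF (G0 (N₀ * q)) ((n : ℤ) * w) (B ^ n) :=
      (hB.isMF.pow n).cast (mul_comm _ _)
    have key := isRatioF_norm_alpha_gen hfm hBm hr
    simp only [slash_pow_SL2, Finset.prod_pow] at key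
    exact key
  · exact IsRootDiv.push (heckeAlphaBar ℂ N₀ q) hH.fst hH.snd.snd.snd.fst hH.snd.snd.snd.snd.2 hD

/-- The character of the transfer, any level. -/
theorem charOf_coresPar_gen (n : ℕ) (c : HomPar (N₀ * q)) :
    charOf n (coresPar N₀ q c) = wreathChar (coresWA N₀ q) (charOf n c) :=
  charOf_eq_wreathChar (coresWA N₀ q) n c (coresPar N₀ q c)
    ((coresPar_coe N₀ q c).trans (coresAll_eq_opA N₀ q ℤ c.1))

/-- **(Dα)**, graph form, any level: `IsKappa n c y → IsKappa n (tr c) (α_* y)`. -/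
theorem isKappa_pushAlpha_gen {n : ℕ} {c : HomPar (N₀ * q)}
    {y : JZero (N₀ * q)} (h : IsKappa (descBc (N₀ * q)) n c y) :
    IsKappa (descBc N₀) n (coresPar N₀ q c) (pushAlpha N₀ q y) := by
  have h1 := isTheta_pushAlpha_gen h
  rw [IsKappa, descBc_pushAlpha, charOf_coresPar_gen]
  exact h1

/-- **(Dα), any level** (P-a): `α_* (κ^{N₀ q}_n c) = κ^{N₀}_n (tr c)`, no hypothesis on `N₀`,
`q`. -/
theorem kappaC_pushAlpha_gen (n : ℕ) (c : HomPar (N₀ * q)) :
    pushAlpha N₀ q ((kappaC (N₀ * q) n c : Fermat.Agent.F3.Jtors (N₀ * q) n) : JZero (N₀ * q)) =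
      ((kappaC N₀ n (coresPar N₀ q c) : Fermat.Agent.F3.Jtors N₀ n) : JZero N₀) := by
  rw [coe_kappaC, coe_kappaC]
  rcases Nat.eq_zero_or_pos n with rfl | hn
  · rw [kappaFun_zero_level, kappaFun_zero_level, map_zero]
  · exact (kappaFun_eq_of_isKappa hn (isKappa_pushAlpha_gen (isKappa_kappaFun hn c))).symm

/-- If the transfer of `c` vanishes, then `κ_n(c)` is killed by `α_*` (any level). -/
theorem pushAlpha_kappaC_eq_zero_gen (n : ℕ)
    {c : HomPar (N₀ * q)} (hc : coresPar N₀ q c = 0) :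
    pushAlpha N₀ q ((kappaC (N₀ * q) n c : Fermat.Agent.F3.Jtors (N₀ * q) n) : JZero (N₀ * q))
      = 0 := by
  rw [kappaC_pushAlpha_gen (N₀ := N₀) (q := q) n c, hc, map_zero]
  rfl

end Level

end Fermat.Agent.S36B
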