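/-
Cluster G (S36), bridge, port P-b DIRECT (helper86): THE TRANSFER COMMUTES WITH `T_ℓ` AT ANY LEVEL.

  `coresPar_heckeHom_gen : coresPar N₀ q (T_ℓ c) = T_ℓ (coresPar N₀ q c)`,  `ℓ ∤ N₀ q`,

with NO hypothesis on `N₀`, `q` (in particular `q ∣ N₀`).  Port of `LDeg.coresW_op_comm`
(`L/Degen/HeckeComm.lean`) with the arbitrary coset representatives `rcW` / `coresWA` of
`S36/Bridge/PushAlpha.lean`; the arithmetic input is `heckeInt_lowerLeft` for a modulus prime to
`ℓ` instead of a prime `q`.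
-/
import Mathlib
import Fermat.Agent.S36.Bridge.PushAlpha
import Fermat.Agent.F3.EigenChar.Deg

set_option autoImplicit false
set_option linter.style.haveILetI false
set_option linter.unusedSectionVars false

noncomputable section

namespace Fermat.Agent.S36B

open CongruenceSubgroup Matrix.SpecialLinearGroup ModularCurve.Period
open Fermat.Agent.F3EC Fermat.Agent.L Fermat.Agent.LDeg
open scoped MatrixGroups
open P2MW.S_ModularForm_heckeT_slash_eq_self_of_mem_Gamma0.ModularForm.HeckeSlashInvariance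

/-- every element lies in the right coset of some representative. -/
theorem rc_cover {G H : Type*} [Group G] [Group H] (f : H →* G) (g : G) :
    ∃ (y : RCos f) (e : H), g = f e * rcRep f y := by
  refine ⟨Quotient.mk'' g, ?_⟩
  have h : QuotientGroup.rightRel f.range (rcRep f (Quotient.mk'' g)) g :=
    Quotient.exact' (rcRep_mk f _)
  rw [QuotientGroup.rightRel_apply] at h
  obtain ⟨n, hn⟩ := h
  exact ⟨n, by rw [hn, inv_mul_cancel_right]⟩

/-- The lower left entries in a Hecke relation, for a modulus prime to `ℓ`. -/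
theorem heckeInt_lowerLeft_coprime {ℓ : ℕ} (g g' : Matrix (Fin 2) (Fin 2) ℤ)
    (x x' : OnePoint (ZMod ℓ)) (h : heckeInt ℓ x * g = g' * heckeInt ℓ x') {m : ℕ}
    (hm : IsCoprime (m : ℤ) (ℓ : ℤ)) (hg' : (m : ℤ) ∣ g' 1 0) : (m : ℤ) ∣ g 1 0 := by
  have e10 := congrFun (congrFun h 1) 0
  have key : (m : ℤ) ∣ (ℓ : ℤ) * g 1 0 ∨ (m : ℤ) ∣ g 1 0 := by
    induction x using OnePoint.rec with
    | infty =>
      right
      induction x' using OnePoint.rec with
      | infty =>
        have e : g 1 0 = g' 1 0 * (ℓ : ℤ) := by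
          simpa [Matrix.mul_apply, Fin.sum_univ_two] using e10
        rw [e]
        exact Dvd.dvd.mul_right hg' _
      | coe k' =>
        have e : g 1 0 = g' 1 0 := by
          simpa [Matrix.mul_apply, Fin.sum_univ_two] using e10
        rw [e]
        exact hg'
    | coe k =>
      left
      induction x' using OnePoint.rec with
      | infty =>
        have e : (ℓ : ℤ) * g 1 0 = g' 1 0 * (ℓ : ℤ) := by
          simpa [Matrix.mul_apply, Fin.sum_univ_two] using e10
        rw [e]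
        exact Dvd.dvd.mul_right hg' _
      | coe k' =>
        have e : (ℓ : ℤ) * g 1 0 = g' 1 0 := by
          simpa [Matrix.mul_apply, Fin.sum_univ_two] using e10
        rw [e]
        exact hg'
  rcases key with h1 | h1
  · exact hm.dvd_of_dvd_mul_left h1
  · exact h1

variable {N q ℓ : ℕ} [NeZero N] [NeZero q] [Fact ℓ.Prime]

/-- **DEG-2 (e)** for `cores` at any level, at the level of wreath homs. -/
theorem coresWA_op_comm (hℓN : ¬ ℓ ∣ N) (hℓNq : ¬ ℓ ∣ N * q) (A : Type*) [AddCommGroup A] :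
    ((coresWA N q).op A).comp (heckeHomAll hℓNq A) =
      (heckeHomAll hℓN A).comp ((coresWA N q).op A) := by
  have hℓ : ℓ.Prime := Fact.out
  have hℓ0 : ℓ ≠ 0 := hℓ.ne_zero
  have hcop : IsCoprime ((N * q : ℕ) : ℤ) (ℓ : ℤ) := by
    rw [Int.isCoprime_iff_gcd_eq_one, Int.gcd_natCast_natCast]
    exact (Nat.Coprime.symm ((Nat.Prime.coprime_iff_not_dvd hℓ).mpr hℓNq))
  rw [← heckeW_op, ← heckeW_op]
  refine WreathHom.op_comm_of_transfer (iotaG_injective N) (Subgroup.inclusion_injective _)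
    (coresWA_realizes N q) (rc_distinct _) (rc_cover _)
    (heckeW_realizes hℓN) (heckeRep_cosetsDistinct N)
    (H' := heckeW hℓNq) (α' := heckeRep ℓ) (heckeW_realizes hℓNq)
    (heckeRep_cosetsDistinct (N * q)) (fun x => ⟨x, 1, by simp⟩) ?_ rfl A
  intro x x'' g n h
  have h' : heckeRep ℓ x * iotaG N g = iotaG (N * q) n * heckeRep ℓ x'' := h
  rw [heckeRep_eq_intGL hℓ0, heckeRep_eq_intGL hℓ0, iotaG_eq_intGL, iotaG_eq_intGL,
    intGL_mul_eq_mul_iff] at h'
  have hdvd := heckeInt_lowerLeft_coprime _ _ x x'' h' hcop (Gamma0_dvd n)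
  exact ⟨⟨(g : SL(2, ℤ)), mem_Gamma0_iff_dvd.mpr hdvd⟩, Subtype.ext rfl⟩

/-- **DEG-2 (e)** for `cores`, any level. -/
theorem coresAll_heckeHomAll_gen (hℓN : ¬ ℓ ∣ N) (hℓNq : ¬ ℓ ∣ N * q) (A : Type*)
    [AddCommGroup A] (c : Additive (Gamma0 (N * q)) →+ A) :
    coresAll N q A (heckeHomAll hℓNq A c) = heckeHomAll hℓN A (coresAll N q A c) := by
  rw [coresAll_eq_opA, coresAll_eq_opA]
  exact congrFun (congrArg DFunLike.coe (coresWA_op_comm hℓN hℓNq A)) c

omit [Fact ℓ.Prime] in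
/-- **(P-b)** The transfer `HomPar (N q) → HomPar N` commutes with `T_ℓ`, `ℓ ∤ N q`, at ANY level
(`q ∣ N` allowed, `q` need not be prime). -/
theorem coresPar_heckeHom_gen (N₀ q : ℕ) [NeZero N₀] [NeZero q] (ℓ : Nat.Primes)
    (hℓ : ¬ (ℓ : ℕ) ∣ N₀ * q) (c : HomPar (N₀ * q)) :
    coresPar N₀ q (heckeHom (N₀ * q) ℓ c) = heckeHom N₀ ℓ (coresPar N₀ q c) := by
  have : Fact (ℓ : ℕ).Prime := ⟨ℓ.2⟩
  have hℓN : ¬ (ℓ : ℕ) ∣ N₀ := fun h' => hℓ (Dvd.dvd.mul_right h' q)
  apply Subtype.ext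
  rw [coresPar_coe, heckeHom_coe ℓ hℓ, heckeHom_coe ℓ hℓN, coresPar_coe]
  exact coresAll_heckeHomAll_gen hℓN hℓ ℤ c.1

end Fermat.Agent.S36B
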