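/-
Cluster G (S36), BRIDGE (architect helper36): interface Props of the bridge.

* `CoreAt lam M q`      : (CORE), the geometric input (helper80's cluster): inertia-fixed
                          `lam`-power torsion of `J₀(M)` killed by the two degeneracy maps at `q`
                          (`q² ∥ M`) is killed by a constant;
* `PushAlphaHecke`, `PushWHecke` (N-DM1) : the degeneracy maps commute with `T_ℓ` on `J₀`;
* `KappaSurj`           (N-KS)  : `κ_{p^k} : Hom_par(Γ₀(N), ℤ) → J₀(N)[p^k]` is onto;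
* `NewLevel`            (N-NV)  : the eigen-character of a newform of level `M` does not occur
                          in `O ⊗ Hom_par(Γ₀(N₁), ℤ)`, `N₁ ∣ M` proper;
* `EigenTateZero`       (N-LIM) : ... nor in the Tate module `O ⊗ T_p J₀(N₁)`.
-/
import Mathlib
import Fermat.Agent.S35.KernelAt
import Fermat.Agent.S35.LatticeCond

set_option autoImplicit false
set_option linter.unusedSectionVars false
set_option linter.style.haveILetI false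

noncomputable section

namespace Fermat.Agent.S36B

open ModularCurve AlgebraicCurve CongruenceSubgroup IsLocalRing
open Fermat.Agent.F3 Fermat.Agent.F3EC Fermat.Agent.F3Deg Fermat.Agent.F3DegW
open Fermat.Agent.AtkinLehner (ALData)
open scoped TensorProduct

local notation "Qb" => AlgebraicClosure ℚ

/-! ### (CORE) -/

/-- **(CORE)** at a prime `q` (used for `q² ∥ M`, `q ≠ lam`): there are a constant `c ≠ 0` and
a place `P ∣ q` such that every `y ∈ J₀(M)[lam ^ n]` (any `n`) which is fixed by the inertia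
group of `P` and killed by `α_*` and by `α_* ∘ w_*` (`w = w_{q²}`) is killed by `c`. -/
def CoreAt (lam M q : ℕ) [NeZero M] [NeZero q] [NeZero (M / q)] : Prop :=
  ∀ (D : ALData), D.Q = q ^ 2 → ∀ (hM : M = D.Q * D.R) (hMq : M = M / q * q),
    ∃ c : ℕ, c ≠ 0 ∧ ∃ P : ValuationSubring Qb, P.LiesOverPrime q ∧
      ∀ (n : ℕ) (y : JZero M), lam ^ n • y = 0 →
        Fermat.Agent.S35.pushAlphaAt hMq y = 0 →
        Fermat.Agent.S35.pushAlphaAt hMq (pushWAt D hM y) = 0 →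
        (∀ σ ∈ P.inertiaSubgroupIn ℚ, σ • y = y) → c • y = 0

/-- **(CORE)** for all levels. -/
def CoreAll : Prop :=
  ∀ (lam M q : ℕ) [NeZero M] [NeZero q] [NeZero (M / q)], lam.Prime → q.Prime → q ≠ lam →
    M.factorization q = 2 → CoreAt lam M q

/-! ### newness inputs (J-side route) -/

/-- **(N-DM1, α)** `α_* ∘ T_ℓ = T_ℓ ∘ α_*` on `J₀`, `ℓ ∤ N₀ q` (`q ∣ N₀` allowed). -/
def PushAlphaHecke : Prop :=
  ∀ (N₀ q : ℕ) [NeZero N₀] [NeZero q] [NeZero (N₀ * q)], q.Prime →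
    ∀ (ℓ : Nat.Primes), ¬ (ℓ : ℕ) ∣ N₀ * q → ∀ y : JZero (N₀ * q),
      pushAlpha N₀ q (heckeOperatorBar (N₀ * q) ℓ y) = heckeOperatorBar N₀ ℓ (pushAlpha N₀ q y)

/-- **(N-DM1, w)** `w_* ∘ T_ℓ = T_ℓ ∘ w_*` on `J₀(M)`, `ℓ ∤ M`. -/
def PushWHecke : Prop :=
  ∀ (M : ℕ) [NeZero M] (D : ALData) (hM : M = D.Q * D.R) (ℓ : Nat.Primes), ¬ (ℓ : ℕ) ∣ M →
    ∀ y : JZero M,
      pushWAt D hM (heckeOperatorBar M ℓ y) = heckeOperatorBar M ℓ (pushWAt D hM y)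

/-- **(N-KS)** `κ_{p^k}` is onto the `p^k`-torsion. -/
def KappaSurj : Prop :=
  ∀ (N : ℕ) [NeZero N] (p : ℕ), p.Prime → ∀ k : ℕ, Function.Surjective (kappaC N (p ^ k))

/-- **(N-NV)** `g` a newform of level `M`, `N₁ ∣ M`, `N₁ ≠ M`: a vector
`y ∈ O ⊗ Hom_par(Γ₀(N₁), ℤ)` on which `T_ℓ` acts by `ι (a_ℓ(g))` for all primes `ℓ ∤ M`,
`ℓ ∉ S`, is zero. -/
def NewLevel : Prop :=
  ∀ (M N₁ : ℕ) [NeZero M] [NeZero N₁], N₁ ∣ M → N₁ ≠ M →
    ∀ (g : CuspForm (Gamma0 M) 2), g.IsNewform →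
    ∀ (S : Finset ℕ), (∀ r : ℕ, r.Prime → r ∣ M → r ∈ S) →
      ∀ (O : Type) [CommRing O] [IsDomain O] [CharZero O]
        (chig : CuspForm.heckeAlgebra M 2 (↑S : Set ℕ) →+* ℂ),
        (∀ (ℓ : ℕ) (hℓ : ℓ.Prime) (hℓM : ¬ ℓ ∣ M) (hℓS : ℓ ∉ (↑S : Set ℕ)),
          chig (CuspForm.heckeAlgebra.T hℓ hℓM hℓS) = ModularFormClass.qCoeff g ℓ) →
        ∀ (iota : chig.range →+* O) (y : O ⊗[ℤ] HomPar N₁),
          (∀ (ℓ : ℕ) (hℓ : ℓ.Prime) (hℓM : ¬ ℓ ∣ M) (hℓS : ℓ ∉ (↑S : Set ℕ)),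
            (heckeHom N₁ ⟨ℓ, hℓ⟩).baseChange O y =
              (iota.comp chig.rangeRestrict) (CuspForm.heckeAlgebra.T hℓ hℓM hℓS) • y) →
          y = 0

/-- **(N-LIM)** `g` a newform of level `M`, `N₁ ∣ M`, `N₁ ≠ M`, `O` a complete DVR with `p ∈ 𝔪`:
a compatible family `z n ∈ O ⊗ J₀(N₁)[p ^ n]` on which `T_ℓ` acts by `ι (a_ℓ(g))` for all
primes `ℓ ∤ M`, `ℓ ∉ S`, is zero. -/
def EigenTateZero : Prop :=
  ∀ (M N₁ : ℕ) [NeZero M] [NeZero N₁], N₁ ∣ M → N₁ ≠ M →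
    ∀ (g : CuspForm (Gamma0 M) 2), g.IsNewform →
    ∀ (p : ℕ), p.Prime →
    ∀ (S : Finset ℕ), (∀ r : ℕ, r.Prime → r ∣ M → r ∈ S) →
      ∀ (O : Type) [CommRing O] [IsDomain O] [IsDiscreteValuationRing O]
        [IsAdicComplete (maximalIdeal O) O] [CharZero O], (p : O) ∈ maximalIdeal O →
      ∀ (chig : CuspForm.heckeAlgebra M 2 (↑S : Set ℕ) →+* ℂ),
        (∀ (ℓ : ℕ) (hℓ : ℓ.Prime) (hℓM : ¬ ℓ ∣ M) (hℓS : ℓ ∉ (↑S : Set ℕ)),
          chig (CuspForm.heckeAlgebra.T hℓ hℓM hℓS) = ModularFormClass.qCoeff g ℓ) →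
        ∀ (iota : chig.range →+* O) (z : (n : ℕ) → O ⊗[ℤ] Jtors N₁ (p ^ n)),
          (∀ n, (Fermat.Agent.S30.mulPTors N₁ p n).baseChange O (z (n + 1)) = z n) →
          (∀ (n ℓ : ℕ) (hℓ : ℓ.Prime) (hℓM : ¬ ℓ ∣ M) (hℓS : ℓ ∉ (↑S : Set ℕ)),
            (heckeTors N₁ (p ^ n) ⟨ℓ, hℓ⟩).baseChange O (z n) =
              (iota.comp chig.rangeRestrict) (CuspForm.heckeAlgebra.T hℓ hℓM hℓS) • z n) →
          ∀ n, z n = 0

end Fermat.Agent.S36B
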