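import Mathlib

/-!
# S36 bridge, BR-1: Kolchin for operators with `(g - 1)² = 0`  (helper8)

`R` a Noetherian domain, `Λ` a nonzero finite torsion-free `R`-module, `ρ : G →* End_R Λ`,
`H ≤ G` a subgroup such that `(ρ σ - 1)² = 0` for all `σ ∈ H`.  Then `H` fixes a nonzero
vector of `Λ`.

Proof.  For `σ, τ ∈ H` put `A = ρ σ - 1`, `B = ρ τ - 1`.  From `A² = B² = 0` and
`(ρ (σ τ) - 1)² = (A + B + A B)² = 0` one gets `A B A = - A B A B`, hence `A B A B = 0`
(multiply by `B`), hence `A B A = B A B = 0` and `A B + B A = 0`.  The `R`-span of `ρ(H)` in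
`End_R Λ` is finitely generated, so spanned by finitely many `ρ σ_i`; a common fixed vector
of the `σ_i` is found by induction (`v ↦ (ρ τ - 1) v`), and it is fixed by all of `H`.
-/

set_option autoImplicit false

namespace Fermat.Agent.S36B

section Algebra

variable {E : Type*} [Ring E]

/-- the anticommutation: `A² = B² = 0`, `(A + B + A B)² = 0` give `A B + B A = 0`. -/
theorem kol_anticomm {A B : E} (hA : A * A = 0) (hB : B * B = 0)
    (hAB : (A + B + A * B) * (A + B + A * B) = 0) : A * B + B * A = 0 := by
  -- expand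
  have hE : A * B + B * A + A * B * A + B * A * B + A * B * A * B = 0 := by
    have e : (A + B + A * B) * (A + B + A * B)
        = A * A + A * B + A * (A * B) + (B * A + B * B + B * (A * B))
          + (A * B * A + A * B * B + A * B * (A * B)) := by
      noncomm_ring
    rw [e] at hAB
    have h1 : A * (A * B) = 0 := by rw [← mul_assoc, hA, zero_mul]
    have h2 : A * B * B = 0 := by rw [mul_assoc, hB, mul_zero]
    rw [hA, hB, h1, h2] at hAB
    rw [← hAB]
    noncomm_ring
  -- `A * E = A B A + A B A B`
  have ha : A * B * A + A * B * A * B = 0 := by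
    have := congrArg (fun X => A * X) hE
    simp only [mul_zero] at this
    have e : A * (A * B + B * A + A * B * A + B * A * B + A * B * A * B)
        = (A * A) * B + A * B * A + (A * A) * B * A + A * B * A * B + (A * A) * B * A * B := by
      noncomm_ring
    rw [e, hA] at this
    simpa using this
  -- multiply by `B`
  have hABAB : A * B * A * B = 0 := by
    have := congrArg (fun X => X * B) ha
    simp only [zero_mul] at this
    have e : (A * B * A + A * B * A * B) * B = A * B * A * B + A * B * A * (B * B) := by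
      noncomm_ring
    rw [e, hB, mul_zero, add_zero] at this
    exact this
  have hABA : A * B * A = 0 := by
    rw [hABAB, add_zero] at ha
    exact ha
  have hBAB : B * A * B = 0 := by
    have := congrArg (fun X => X * B) hE
    simp only [zero_mul] at this
    have e : (A * B + B * A + A * B * A + B * A * B + A * B * A * B) * B
        = A * (B * B) + B * A * B + A * B * A * B + B * A * (B * B) + A * B * A * (B * B) := by
      noncomm_ring
    rw [e, hB, hABAB] at this
    simpa using this
  rw [hABAB, hABA, hBAB] at hE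
  simpa using hE

end Algebra

section Kolchin

variable {R : Type*} [CommRing R] [IsDomain R] [IsNoetherianRing R]
  {Λ : Type*} [AddCommGroup Λ] [Module R Λ] [Module.Finite R Λ] [Module.IsTorsionFree R Λ]
  [Nontrivial Λ] {G : Type*} [Group G]

/-- **Kolchin** for a subgroup of operators with `(g - 1)² = 0`. -/
theorem exists_fixed_of_sq_zero (ρ : G →* Module.End R Λ) (H : Subgroup G)
    (hH : ∀ σ ∈ H, (ρ σ - 1) * (ρ σ - 1) = 0) :
    ∃ v : Λ, v ≠ 0 ∧ ∀ σ ∈ H, ρ σ v = v := by
  classical
  -- anticommutation
  have hanti : ∀ σ ∈ H, ∀ τ ∈ H, (ρ σ - 1) * (ρ τ - 1) + (ρ τ - 1) * (ρ σ - 1) = 0 := by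
    intro σ hσ τ hτ
    refine kol_anticomm (hH σ hσ) (hH τ hτ) ?_
    have e : (ρ σ - 1) + (ρ τ - 1) + (ρ σ - 1) * (ρ τ - 1) = ρ (σ * τ) - 1 := by
      rw [map_mul]
      noncomm_ring
    rw [e]
    exact hH _ (H.mul_mem hσ hτ)
  -- finitely many generators of the span
  set s : Set (Module.End R Λ) := {f | ∃ σ ∈ H, ρ σ = f} with hs
  have hfg : (Submodule.span R s).FG := IsNoetherian.noetherian _
  obtain ⟨F, hFs, hFspan⟩ := (Submodule.fg_span_iff_fg_span_finset_subset s).mp hfg
  -- a common fixed vector of the generators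
  have hfix : ∀ F' : Finset (Module.End R Λ), (↑F' : Set (Module.End R Λ)) ⊆ s →
      ∃ v : Λ, v ≠ 0 ∧ ∀ f ∈ F', f v = v := by
    intro F'
    induction F' using Finset.induction_on with
    | empty =>
      intro _
      obtain ⟨v, hv⟩ := exists_ne (0 : Λ)
      exact ⟨v, hv, fun f hf => absurd hf (Finset.notMem_empty f)⟩
    | insert g F'' hg ih =>
      intro hsub
      have hsub' : (↑F'' : Set (Module.End R Λ)) ⊆ s := fun f hf =>
        hsub (Finset.mem_coe.mpr (Finset.mem_insert_of_mem (Finset.mem_coe.mp hf)))
      obtain ⟨v, hv, hvF⟩ := ih hsub'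
      obtain ⟨τ, hτ, hτg⟩ := hsub (Finset.mem_coe.mpr (Finset.mem_insert_self g F''))
      by_cases hgv : g v = v
      · refine ⟨v, hv, fun f hf => ?_⟩
        rcases Finset.mem_insert.mp hf with rfl | hf
        · exact hgv
        · exact hvF f hf
      · refine ⟨g v - v, sub_ne_zero.mpr hgv, fun f hf => ?_⟩
        rcases Finset.mem_insert.mp hf with rfl | hf
        · -- `(f - 1)² v = 0`
          have h := congrArg (fun X : Module.End R Λ => X v) (hH τ hτ)
          rw [hτg] at h
          simp only [Module.End.mul_apply, LinearMap.sub_apply, Module.End.one_apply,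
            LinearMap.zero_apply, map_sub] at h
          rw [map_sub]
          exact sub_eq_zero.mp h
        · obtain ⟨σ, hσ, hσf⟩ := hsub' (Finset.mem_coe.mpr hf)
          have h := congrArg (fun X : Module.End R Λ => X v) (hanti σ hσ τ hτ)
          rw [hσf, hτg] at h
          simp only [Module.End.mul_apply, LinearMap.sub_apply, Module.End.one_apply,
            LinearMap.zero_apply, LinearMap.add_apply, map_sub, hvF f hf] at h
          -- `h : f (g v) - v - (g v - v) + (g v - g v) = 0`
          rw [map_sub, hvF f hf]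
          have h' : f (g v) - v - (g v - v) = 0 := by
            rw [← h]
            abel
          exact sub_eq_zero.mp h'
  obtain ⟨v, hv, hvF⟩ := hfix F hFs
  refine ⟨v, hv, fun τ hτ => ?_⟩
  -- `ρ τ v ∈ R v`
  have hmem : ρ τ ∈ Submodule.span R (↑F : Set (Module.End R Λ)) := by
    rw [← hFspan]
    exact Submodule.subset_span ⟨τ, hτ, rfl⟩
  have hscal : ∀ f ∈ Submodule.span R (↑F : Set (Module.End R Λ)), ∃ r : R, f v = r • v := by
    intro f hf
    induction hf using Submodule.span_induction with
    | mem f hf => exact ⟨1, by rw [one_smul]; exact hvF f (Finset.mem_coe.mp hf)⟩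
    | zero => exact ⟨0, by rw [zero_smul, LinearMap.zero_apply]⟩
    | add f g _ _ hf hg =>
      obtain ⟨r, hr⟩ := hf
      obtain ⟨r', hr'⟩ := hg
      exact ⟨r + r', by rw [LinearMap.add_apply, hr, hr', add_smul]⟩
    | smul a f _ hf =>
      obtain ⟨r, hr⟩ := hf
      exact ⟨a * r, by rw [LinearMap.smul_apply, hr, smul_smul]⟩
  obtain ⟨r, hr⟩ := hscal _ hmem
  have h := congrArg (fun X : Module.End R Λ => X v) (hH τ hτ)
  simp only [Module.End.mul_apply, LinearMap.sub_apply, Module.End.one_apply,
    LinearMap.zero_apply, map_sub, hr, map_smul] at h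
  -- `h : r • r • v - r • v - (r • v - v) = 0`
  have h2 : ((r - 1) * (r - 1)) • v = 0 := by
    rw [← h]
    simp only [sub_smul, mul_smul, one_smul, smul_sub]
  have h3 : (r - 1) * (r - 1) = 0 := (smul_eq_zero.mp h2).resolve_right hv
  have h4 : r = 1 := by
    have := mul_self_eq_zero.mp h3
    exact sub_eq_zero.mp this
  rw [hr, h4, one_smul]

end Kolchin

end Fermat.Agent.S36B
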