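import Fermat.Agent.S30.Assembly
import Fermat.Agent.S36.Bridge.KolchinLam
import Fermat.Prelude.Def_CuspForm_Newforms
import Fermat.Prelude.Def_GaloisRep_LocalConditions

set_option autoImplicit false

/-!
# S36 bridge, BR-3: the endgame on the eigen-lattice  (helper8)

The frozen S36 asks for ONE attached representation which is not unipotent on inertia at the
primes `q ≠ λ` with `q² ‖ M`.  The representation `ρ'` of the S30 core satisfies
`charpoly (ρ' σ) = X² - t(σ) X + ε(σ)` for all `σ`, where `t` is determined by the quadratic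
relation `σ² - t(σ) σ + ε(σ) = 0` on the eigen-lattice `Λ` (`QuadRel`).

Input of this file (`NoInertiaFixed`): for every such `q` there is a place `P` over `q` such that
the inertia group at `P` fixes no nonzero vector of `Λ`.
(Source: `Λ` lies in the Tate module of the `q`-new part `ker π₁_* ∩ ker π₂_*` of `J₀(M)`; the
inertia-fixed part of its torsion has bounded exponent: (CORE), `CoreAt` below.)

If `ρ'` were unipotent on inertia at `q`, then `t = 2`, `ε = 1` on the inertia group at `P`,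
so `(σ - 1)² = 0` on `Λ` there, and Kolchin (`exists_fixed_of_sq_zero`) gives a nonzero fixed
vector of `Λ`.

`s36Statement_of_lattice`: the frozen statement of S36 (as the Prop `S36Statement`) from the
lattice input `S36LatticeInput`.  The hypotheses `hlam2`, `hres` of S36 are not used.
-/

namespace Fermat.Agent.S36B

open Module IsLocalRing Polynomial Fermat.Agent.S30

/-! ### the lattice without inertia-fixed vectors -/

section Lattice

variable {p N : ℕ} {S : Finset ℕ} {𝒪 : Type} [CommRing 𝒪] [IsDomain 𝒪]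
  [IsDiscreteValuationRing 𝒪] [CharZero 𝒪]

/-- **No inertia-fixed vectors**: for every prime `q ≠ p` with `q² ‖ N` there is a place `P`
over `q` whose inertia group fixes no nonzero vector of the module. -/
def NoInertiaFixed (p N : ℕ) {𝒪 : Type} [CommRing 𝒪] {Λ : Type} [AddCommGroup Λ] [Module 𝒪 Λ]
    (ρ : GQ →* Module.End 𝒪 Λ) : Prop :=
  ∀ q : ℕ, q.Prime → q ≠ p → N.factorization q = 2 →
    ∃ P : ValuationSubring (AlgebraicClosure ℚ), P.LiesOverPrime q ∧
      ∀ v : Λ, (∀ σ ∈ P.inertiaSubgroupIn ℚ, ρ σ v = v) → v = 0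

/-- comparison of coefficients: `X² - t X + e = (X - 1)²` gives `t = 2`, `e = 1`. -/
theorem coeff_eq_of_unip {R : Type*} [CommRing R] {t e : R}
    (h : (X : R[X]) ^ 2 - C t * X + C e = (X - 1) ^ 2) : t = 2 ∧ e = 1 := by
  have h0 := congrArg (fun f : R[X] => f.coeff 0) h
  have h1 := congrArg (fun f : R[X] => f.coeff 1) h
  have e2 : ((X : R[X]) - 1) ^ 2 = X ^ 2 - C (2 : R) * X + C (1 : R) := by
    simp only [map_ofNat, map_one]
    ring
  rw [e2] at h0 h1
  simp only [coeff_add, coeff_sub, coeff_X_pow, coeff_C_mul, coeff_X_zero, coeff_X_one,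
    coeff_C_zero, coeff_C_succ, mul_zero, mul_one, sub_zero, zero_add, add_zero,
    OfNat.zero_ne_ofNat, OfNat.one_ne_ofNat, if_false, zero_sub, neg_inj] at h0 h1
  exact ⟨h1, h0⟩

/-- The Galois representation attached to a `FrobLattice` without inertia-fixed vectors:
besides the two clauses of S30 it is not unipotent on inertia at the primes `q ≠ p`,
`q² ‖ N`. -/
theorem exists_galoisRepAdic_of_frobLattice_nofix (hdens : F3.FrobDensityLite) (hpS : p ∈ S)
    (a : ℕ → 𝒪) (L : FrobLattice p N S 𝒪 a) (E : CycloCharData p 𝒪)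
    (hL : NoInertiaFixed p N L.ρ) :
    ∃ ρ : GaloisRepAdic 𝒪,
      (∀ ℓ : ℕ, ℓ.Prime → ℓ ∉ S →
        ∀ A : ValuationSubring (AlgebraicClosure ℚ), A.LiesOverPrime ℓ →
          ∀ σ : GQ, A.IsFrobeniusAt σ ℓ →
            LinearMap.charpoly (ρ.ρ σ) = X ^ 2 - C (a ℓ) * X + C ((ℓ : 𝒪))) ∧
      (∀ q : ℕ, q.Prime → ¬ q ∣ N → q ≠ p → ρ.IsUnramifiedAt q) ∧
      (∀ q : ℕ, q.Prime → q ≠ p → N.factorization q = 2 → ¬ ρ.IsUnipotentOnInertiaAt q) := by
  obtain ⟨t, hQ, ht⟩ := exists_quadRel_of_frobLattice hdens hpS a L E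
  obtain ⟨V, iV1, iV2, iV3, iV4, ρ', hfin, hchar, hcont, hker⟩ :=
    repConclusion_of_quadRel L.ρ E.ε t hQ complexConjugation complexConjugation_mul_self E.conj
  have hadic : GaloisActionIsAdicContinuous 𝒪 ρ' := by
    intro n
    obtain ⟨L₁, hL₁fin, hL₁⟩ := L.cont n
    obtain ⟨L₂, hL₂fin, hL₂⟩ := E.level n
    refine ⟨L₁ ⊔ L₂, IntermediateField.finiteDimensional_sup L₁ L₂, ?_⟩
    intro σ hσ v
    exact hcont n σ (hL₁ σ (fun x hx => hσ x (le_sup_left (a := L₁) (b := L₂) hx)))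
      (hL₂ σ (fun x hx => hσ x (le_sup_right (a := L₁) (b := L₂) hx))) v
  refine ⟨{ V := V, finrank_eq := hfin, ρ := ρ', isAdicContinuous := hadic }, ?_, ?_, ?_⟩
  · intro ℓ hℓ hℓS A hA σ hσ
    have hℓp : ℓ ≠ p := fun h => hℓS (h ▸ hpS)
    show LinearMap.charpoly (ρ' σ) = _
    rw [hchar σ, ht ℓ hℓ hℓS A hA σ hσ, E.frob ℓ hℓ hℓp A hA σ hσ]
  · intro q hq hqN hqp P hP σ hσ
    show ρ' σ = 1
    exact hker σ (L.unram q hq hqN hqp P hP σ hσ) (E.inertia q hq hqp P hP σ hσ)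
  · intro q hq hqp hq2 hunip
    obtain ⟨P, hP, hfix⟩ := hL q hq hqp hq2
    -- `(σ - 1)² = 0` on the lattice, for `σ` in the inertia group at `P`
    have hsq : ∀ σ ∈ P.inertiaSubgroupIn ℚ, (L.ρ σ - 1) * (L.ρ σ - 1) = 0 := by
      intro σ hσ
      have h1 : LinearMap.charpoly (ρ' σ) = (X - 1) ^ 2 := hunip P hP σ hσ
      rw [hchar σ] at h1
      obtain ⟨ht2, he1⟩ := coeff_eq_of_unip h1
      have h2 := hQ σ
      rw [ht2, he1] at h2
      rw [← h2, sub_mul, mul_sub, mul_sub, mul_one, one_mul, one_mul, one_smul, two_smul]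
      abel
    obtain ⟨v, hv, hvfix⟩ := exists_fixed_of_sq_zero L.ρ (P.inertiaSubgroupIn ℚ) hsq
    exact hv (hfix v hvfix)

end Lattice

/-! ### S36 from the lattice -/

/-- The frozen statement of S36, as a proposition. -/
def S36Statement : Prop :=
  ∀ {M : ℕ} [NeZero M] {g : CuspForm (CongruenceSubgroup.Gamma0 M) 2} (_hg : g.IsNewform)
    (lam : ℕ) [Fact lam.Prime]
    (S : Finset ℕ)
    (O' : Type) [CommRing O'] [IsDomain O'] [IsDiscreteValuationRing O']
    [IsAdicComplete (IsLocalRing.maximalIdeal O') O'] [Finite (IsLocalRing.ResidueField O')]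
    [CharZero O'] (_hlamO' : (lam : O') ∈ IsLocalRing.maximalIdeal O')
    (_hlam2 : lam ≠ 2)
    (chig : CuspForm.heckeAlgebra M 2 (↑S : Set ℕ) →+* ℂ)
    (_hchig : ∀ (ℓ : ℕ) (hℓ : ℓ.Prime) (hℓM : ¬ ℓ ∣ M) (hℓS : ℓ ∉ (↑S : Set ℕ)),
      chig (CuspForm.heckeAlgebra.T hℓ hℓM hℓS) = ModularFormClass.qCoeff g ℓ)
    (iota : chig.range →+* O')
    (_hlamS : lam ∈ S) (_hMS : ∀ q : ℕ, q.Prime → q ∣ M → q ∈ S)
    (_hres : ∀ (O'' : Type) [CommRing O''] [IsDomain O''] [IsDiscreteValuationRing O'']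
      [IsAdicComplete (IsLocalRing.maximalIdeal O'') O''] [Finite (IsLocalRing.ResidueField O'')]
      [CharZero O'']
      [Algebra O' O''] [Module.Finite O' O''] [IsLocalHom (algebraMap O' O'')],
      Function.Injective (algebraMap O' O'') → ∀ (ρ : GaloisRepAdic O''),
      (∀ (ℓ : ℕ) (hℓ : ℓ.Prime) (_hℓlam : ℓ ≠ lam) (hℓM : ¬ ℓ ∣ M) (hℓS : ℓ ∉ (↑S : Set ℕ)),
        ∀ A : ValuationSubring (AlgebraicClosure ℚ), A.LiesOverPrime ℓ →
          ∀ σ : AlgebraicClosure ℚ ≃ₐ[ℚ] AlgebraicClosure ℚ, A.IsFrobeniusAt σ ℓ →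
            LinearMap.charpoly (ρ.ρ σ) =
              X ^ 2 - C (algebraMap O' O'' ((iota.comp chig.rangeRestrict)
                (CuspForm.heckeAlgebra.T hℓ hℓM hℓS))) * X
                + C ((ℓ : O'')))
      → ρ.residual.IsAbsolutelyIrreducible ∧ ρ.residual.IsOdd),
    ∃ (O'' : Type) (_ : CommRing O'') (_ : IsDomain O'') (_ : IsDiscreteValuationRing O'')
      (_ : IsAdicComplete (IsLocalRing.maximalIdeal O'') O'')
      (_ : Finite (IsLocalRing.ResidueField O''))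
      (_ : CharZero O'') (_ : Algebra O' O'') (_ : Module.Finite O' O'')
      (_ : IsLocalHom (algebraMap O' O'')),
      Function.Injective (algebraMap O' O'') ∧
      ∃ ρ : GaloisRepAdic O'',
        (∀ (ℓ : ℕ) (hℓ : ℓ.Prime) (hℓM : ¬ ℓ ∣ M) (hℓS : ℓ ∉ (↑S : Set ℕ)),
          ∀ A : ValuationSubring (AlgebraicClosure ℚ), A.LiesOverPrime ℓ →
            ∀ σ : AlgebraicClosure ℚ ≃ₐ[ℚ] AlgebraicClosure ℚ, A.IsFrobeniusAt σ ℓ →
              LinearMap.charpoly (ρ.ρ σ) =
                X ^ 2 - C (algebraMap O' O'' ((iota.comp chig.rangeRestrict)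
                  (CuspForm.heckeAlgebra.T hℓ hℓM hℓS))) * X
                  + C ((ℓ : O''))) ∧
        (∀ q : ℕ, q.Prime → q ≠ lam → M.factorization q = 2 → ¬ ρ.IsUnipotentOnInertiaAt q)

/-- **The lattice input of S36**: for a newform `g` of level `M` and a point `ι ∘ χ_g` of the
Hecke algebra there is a `FrobLattice` without inertia-fixed vectors at the primes `q ≠ λ`,
`q² ‖ M`. -/
def S36LatticeInput : Prop :=
  ∀ {M : ℕ} [NeZero M] {g : CuspForm (CongruenceSubgroup.Gamma0 M) 2} (_hg : g.IsNewform)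
    (lam : ℕ) [Fact lam.Prime]
    (S : Finset ℕ)
    (O' : Type) [CommRing O'] [IsDomain O'] [IsDiscreteValuationRing O']
    [IsAdicComplete (IsLocalRing.maximalIdeal O') O'] [Finite (IsLocalRing.ResidueField O')]
    [CharZero O'] (_hlamO' : (lam : O') ∈ IsLocalRing.maximalIdeal O')
    (_hlam2 : lam ≠ 2)
    (chig : CuspForm.heckeAlgebra M 2 (↑S : Set ℕ) →+* ℂ)
    (_hchig : ∀ (ℓ : ℕ) (hℓ : ℓ.Prime) (hℓM : ¬ ℓ ∣ M) (hℓS : ℓ ∉ (↑S : Set ℕ)),
      chig (CuspForm.heckeAlgebra.T hℓ hℓM hℓS) = ModularFormClass.qCoeff g ℓ)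
    (iota : chig.range →+* O')
    (_hlamS : lam ∈ S) (_hMS : ∀ q : ℕ, q.Prime → q ∣ M → q ∈ S),
    ∃ L : FrobLattice lam M S O' (heckeEigenvalue (iota.comp chig.rangeRestrict)),
      NoInertiaFixed lam M L.ρ

/-- **S36 from the lattice input** (Frobenius density and the cyclotomic character are taken as
hypotheses here; both are unconditional, see `S30/Final.lean`). -/
theorem s36Statement_of_lattice (hdens : F3.FrobDensityLite)
    (hcyc : ∀ (p : ℕ) [Fact p.Prime] (𝒪 : Type) [CommRing 𝒪] [IsDomain 𝒪]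
      [IsDiscreteValuationRing 𝒪] [IsAdicComplete (maximalIdeal 𝒪) 𝒪]
      [Finite (ResidueField 𝒪)] [CharZero 𝒪], (p : 𝒪) ∈ maximalIdeal 𝒪 →
      Nonempty (CycloCharData p 𝒪))
    (hlat : S36LatticeInput) : S36Statement := by
  intro M _ g hg lam _ S O' _ _ _ _ _ _ hlamO' hlam2 chig hchig iota hlamS hMS _
  obtain ⟨E⟩ := hcyc lam O' hlamO'
  obtain ⟨L, hL⟩ := hlat hg lam S O' hlamO' hlam2 chig hchig iota hlamS hMS
  obtain ⟨ρ, hρ, -, hρ2⟩ := exists_galoisRepAdic_of_frobLattice_nofix hdens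
    hlamS (heckeEigenvalue (iota.comp chig.rangeRestrict)) L E hL
  refine ⟨O', inferInstance, inferInstance, inferInstance, inferInstance, inferInstance,
    inferInstance, Algebra.id O', inferInstance, ?_, Function.injective_id, ρ, ?_, hρ2⟩
  · exact ⟨fun _ h => h⟩
  · intro ℓ hℓ hℓM hℓS A hA σ hσ
    have hℓS' : ℓ ∉ S := fun h => hℓS (Finset.mem_coe.mpr h)
    rw [hρ ℓ hℓ hℓS' A hA σ hσ, heckeEigenvalue_eq (iota.comp chig.rangeRestrict) hℓ hℓM hℓS]
    rfl

end Fermat.Agent.S36B
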