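/-
Cluster G (S36), BRIDGE, seat N-DM1 (w-part).  Owner: helper17.

`pushWHecke : PushWHecke` : the Atkin–Lehner push-forward `w_*` commutes with the Hecke operators
`T_ℓ`, `ℓ ∤ M`, on `J₀(M)(ℚ̄)`.  Proof: `R38.heckeOperatorBar_pushWAt` (`R38/P/WSide.lean`).
-/
import Fermat.Agent.S36.Bridge.Defs
import Fermat.Agent.R38.P.WSide

set_option autoImplicit false

namespace Fermat.Agent.S36B

/-- **(N-DM1, w)** -/
theorem pushWHecke : PushWHecke := by
  intro M _ D hM ℓ hℓ y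
  have hQ : ¬ (ℓ : ℕ) ∣ D.Q := fun h => hℓ (hM ▸ Dvd.dvd.mul_right h D.R)
  exact (Fermat.Agent.R38.heckeOperatorBar_pushWAt D hM ℓ hQ y).symm

end Fermat.Agent.S36B
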