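/-
Cluster G (S36), BRIDGE (helper36): the `κ` trick and the two corestrictions at `q² ∥ M`.

* `homPar_eq_of_kappaC`  : `c, c' ∈ Hom_par(Γ₀(N), ℤ)` with `κ_{p^k}(c) = κ_{p^k}(c')` for all
                           `k` are equal;
* `pushAlphaAt_kappaC_gen`, `pushAlphaAt_pushWAt_kappaC_gen` : `α_* ∘ κ = κ ∘ tr`,
                           `α_* ∘ w_* ∘ κ = κ ∘ tr ∘ w` at ANY level `M = N₁ q` (from helper86's
                           `kappaC_pushAlpha_gen`);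
* `coresParAt_heckeHom`, `wPar_heckeHom` : `tr` and `w` commute with `T_ℓ` on `Hom_par`, from the
                           commutation on `J₀` (`PushAlphaHecke`, `pushWHecke`) by the `κ` trick.
-/
import Mathlib
import Fermat.Agent.S36.Bridge.Defs
import Fermat.Agent.S36.Bridge.PushAlpha
import Fermat.Agent.S36.Bridge.PushWHecke

set_option autoImplicit false
set_option linter.unusedSectionVars false
set_option linter.style.haveILetI false

noncomputable section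

namespace Fermat.Agent.S36B

open ModularCurve AlgebraicCurve CongruenceSubgroup IsLocalRing
open Fermat.Agent.F3 Fermat.Agent.F3EC Fermat.Agent.F3Deg Fermat.Agent.F3DegW Fermat.Agent.LDeg
open Fermat.Agent.S35
open Fermat.Agent.AtkinLehner (ALData)
open scoped TensorProduct

/-! ### the `κ` trick -/

section Trick

variable {N : ℕ} [NeZero N]

/-- an element of `Hom_par(Γ₀(N), ℤ)` divisible by all powers of `p` is zero. -/
theorem homPar_eq_zero_of_forall_pow {p : ℕ} (hp : 1 < p) (c : HomPar N)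
    (h : ∀ k : ℕ, ∃ c' : HomPar N, c = ((p ^ k : ℕ) : ℤ) • c') : c = 0 := by
  apply Subtype.ext
  refine AddMonoidHom.ext fun γ => ?_
  show (c : Additive (Gamma0 N) →+ ℤ) γ = 0
  by_contra hne
  obtain ⟨c', hc'⟩ := h ((c : Additive (Gamma0 N) →+ ℤ) γ).natAbs
  have hdvd : ((p ^ ((c : Additive (Gamma0 N) →+ ℤ) γ).natAbs : ℕ) : ℤ) ∣
      (c : Additive (Gamma0 N) →+ ℤ) γ := by
    refine ⟨(c' : Additive (Gamma0 N) →+ ℤ) γ, ?_⟩
    conv_lhs => rw [hc']
    rfl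
  have h1 := Int.natAbs_dvd_natAbs.mpr hdvd
  rw [Int.natAbs_natCast] at h1
  have h2 := Nat.le_of_dvd (Int.natAbs_pos.mpr hne) h1
  exact absurd h2 (not_le.mpr (Nat.lt_pow_self hp))

/-- **the `κ` trick**: `κ_{p^k}(c) = κ_{p^k}(c')` for all `k` implies `c = c'`. -/
theorem homPar_eq_of_kappaC {p : ℕ} (hp : p.Prime) {c c' : HomPar N}
    (h : ∀ k : ℕ, ((kappaC N (p ^ k) c : Jtors N (p ^ k)) : JZero N) =
      ((kappaC N (p ^ k) c' : Jtors N (p ^ k)) : JZero N)) : c = c' := by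
  rw [← sub_eq_zero]
  refine homPar_eq_zero_of_forall_pow hp.one_lt (c - c') fun k => ?_
  have h0 : kappaC N (p ^ k) (c - c') = 0 := by
    rw [map_sub, sub_eq_zero]
    exact Subtype.ext (h k)
  exact kappaC_ker (pow_pos hp.pos k) h0

end Trick

/-! ### `α_*` and `κ` at level `M = N₁ q` -/

section At

variable {M N₁ q : ℕ} [NeZero M] [NeZero N₁] [NeZero q]

/-- **(Dα)** at level `M = N₁ q`, any `q`. -/
theorem pushAlphaAt_kappaC_gen (h : M = N₁ * q) (n : ℕ) (c : HomPar M) :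
    pushAlphaAt h ((kappaC M n c : Jtors M n) : JZero M) =
      ((kappaC N₁ n (coresParAt h c) : Jtors N₁ n) : JZero N₁) := by
  subst h
  exact kappaC_pushAlpha_gen n c

/-- **(Db)** at level `M = N₁ q`, any `q`, any Atkin–Lehner data. -/
theorem pushAlphaAt_pushWAt_kappaC_gen (h : M = N₁ * q) (D : ALData) (hM : M = D.Q * D.R)
    (n : ℕ) (c : HomPar M) :
    pushAlphaAt h (pushWAt D hM ((kappaC M n c : Jtors M n) : JZero M)) =
      ((kappaC N₁ n (coresParAt h (wPar D hM c)) : Jtors N₁ n) : JZero N₁) := by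
  rw [kappaC_pushWAt D hM n c, pushAlphaAt_kappaC_gen]

/-- `α_*` commutes with `T_ℓ` at level `M = N₁ q`. -/
theorem pushAlphaAt_hecke (hPA : PushAlphaHecke) (h : M = N₁ * q) (hq : q.Prime)
    (ℓ : Nat.Primes) (hℓ : ¬ (ℓ : ℕ) ∣ M) (y : JZero M) :
    pushAlphaAt h (heckeOperatorBar M ℓ y) = heckeOperatorBar N₁ ℓ (pushAlphaAt h y) := by
  subst h
  exact hPA N₁ q hq ℓ hℓ y

/-- **(P-b)** the transfer commutes with `T_ℓ`, `ℓ ∤ M`, at level `M = N₁ q` (any `q`). -/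
theorem coresParAt_heckeHom (hPA : PushAlphaHecke) (h : M = N₁ * q) (hq : q.Prime)
    (ℓ : Nat.Primes) (hℓ : ¬ (ℓ : ℕ) ∣ M) (c : HomPar M) :
    coresParAt h (heckeHom M ℓ c) = heckeHom N₁ ℓ (coresParAt h c) := by
  have hℓN : ¬ (ℓ : ℕ) ∣ N₁ := fun h' => hℓ (by rw [h]; exact Dvd.dvd.mul_right h' q)
  refine homPar_eq_of_kappaC Nat.prime_two fun k => ?_
  rw [← pushAlphaAt_kappaC_gen h, kappaC_hecke (2 ^ k) ℓ hℓ c, kappaC_hecke (2 ^ k) ℓ hℓN]
  show pushAlphaAt h (heckeOperatorBar M ℓ ((kappaC M (2 ^ k) c : Jtors M (2 ^ k)) : JZero M)) =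
    heckeOperatorBar N₁ ℓ
      ((kappaC N₁ (2 ^ k) (coresParAt h c) : Jtors N₁ (2 ^ k)) : JZero N₁)
  rw [pushAlphaAt_hecke hPA h hq ℓ hℓ, pushAlphaAt_kappaC_gen h]

/-- the Atkin–Lehner operator commutes with `T_ℓ`, `ℓ ∤ M`, on `Hom_par`. -/
theorem wPar_heckeHom (D : ALData) (hM : M = D.Q * D.R) (ℓ : Nat.Primes)
    (hℓ : ¬ (ℓ : ℕ) ∣ M) (c : HomPar M) :
    wPar D hM (heckeHom M ℓ c) = heckeHom M ℓ (wPar D hM c) := by
  refine homPar_eq_of_kappaC Nat.prime_two fun k => ?_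
  rw [← kappaC_pushWAt D hM, kappaC_hecke (2 ^ k) ℓ hℓ c, kappaC_hecke (2 ^ k) ℓ hℓ]
  show pushWAt D hM (heckeOperatorBar M ℓ ((kappaC M (2 ^ k) c : Jtors M (2 ^ k)) : JZero M)) =
    heckeOperatorBar M ℓ ((kappaC M (2 ^ k) (wPar D hM c) : Jtors M (2 ^ k)) : JZero M)
  rw [pushWHecke M D hM ℓ hℓ, kappaC_pushWAt D hM]

end At

end Fermat.Agent.S36B
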