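import Fermat.Agent.S35.TransferCond

/-!
# S36 bridge, BR-2: the conditional eigen-lattice has no fixed vectors  (helper8)

`exists_eigenLattice_transfer_fix` is `S35.exists_eigenLattice_transfer_cond` (same lattice,
same clauses) with ONE more clause, the

**fixed-vector transfer**: if `H ⊆ G` and `c ≠ 0` are such that every
`y ∈ J[p ^ n]` (any `n`) with `u y = 0` which is fixed by `H` is killed by `c`, then the lattice
has no nonzero vector fixed by `H`.

Proof: flatness of `O` over `ℤ` applied to `Φ = (u, (σ - 1)_{σ ∈ H₀}) : J[p ^ k] → J' × J^{H₀}`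
(`H₀ ⊆ H` finite, detecting the `H`-fixed points of the finite group `J[p ^ k]`) gives
`c • X_k = 0` for every term `X_k` of a fixed vector `X`; then `X_n = p ^ c • X_{n + c} = 0`
(Bezout for `c` and `p ^ (n + c)`).
-/

set_option autoImplicit false
set_option linter.unusedSectionVars false
set_option linter.style.haveILetI false

noncomputable section

namespace Fermat.Agent.S36B

open IsLocalRing Fermat.Agent.S30Tate Fermat.Agent.S35
open scoped TensorProduct

/-! ### base change of products (copies of the lemmas of `S35/KernelAt.lean`) -/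

section BC

variable {O : Type*} [CommRing O] {H₀ : Type*} [AddCommGroup H₀]

theorem bcProd_eq_zero {H₁ H₂ : Type*} [AddCommGroup H₁] [AddCommGroup H₂]
    (t₁ : H₀ →ₗ[ℤ] H₁) (t₂ : H₀ →ₗ[ℤ] H₂) (x : O ⊗[ℤ] H₀)
    (h₁ : t₁.baseChange O x = 0) (h₂ : t₂.baseChange O x = 0) :
    (LinearMap.prod t₁ t₂).baseChange O x = 0 := by
  have e : LinearMap.prod t₁ t₂ =
      LinearMap.inl ℤ H₁ H₂ ∘ₗ t₁ + LinearMap.inr ℤ H₁ H₂ ∘ₗ t₂ := by
    ext c <;> simp
  rw [e, LinearMap.baseChange_add, LinearMap.add_apply, LinearMap.baseChange_comp,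
    LinearMap.baseChange_comp, LinearMap.comp_apply, LinearMap.comp_apply, h₁, h₂, map_zero,
    map_zero, add_zero]

theorem bcPi_eq_zero {ι : Type*} [Finite ι] {H : ι → Type*}
    [∀ i, AddCommGroup (H i)] (t : ∀ i, H₀ →ₗ[ℤ] H i) (x : O ⊗[ℤ] H₀)
    (h : ∀ i, (t i).baseChange O x = 0) :
    (LinearMap.pi t).baseChange O x = 0 := by
  classical
  haveI : Fintype ι := Fintype.ofFinite ι
  have e : LinearMap.pi t = ∑ i, LinearMap.single ℤ H i ∘ₗ t i := by
    ext c j
    simp [LinearMap.sum_apply, Finset.sum_apply]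
  have e2 : (LinearMap.pi t).baseChange O =
      ∑ i, (LinearMap.single ℤ H i ∘ₗ t i).baseChange O := by
    rw [e]
    exact map_sum (LinearMap.baseChangeHom ℤ O H₀ (∀ i, H i)) _ _
  rw [e2, LinearMap.sum_apply]
  refine Finset.sum_eq_zero fun i _ => ?_
  rw [LinearMap.baseChange_comp, LinearMap.comp_apply, h i, map_zero]

end BC

/-! ### the flatness step -/

section Flat

variable (O : Type*) [CommRing O] [Module.Flat ℤ O] {J : Type*} [AddCommGroup J]
  {G : Type*} [Group G] [DistribMulAction G J]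

/-- If the `H`-fixed points of `J[k] ∩ ker u` are killed by `c`, so are the `H`-fixed points
of `(O ⊗ J)[k] ∩ ker (u ⊗ 1)`. -/
theorem fix_smul_eq_zero_of_torsion_of_ker {J' : Type*} [AddCommGroup J'] (u : J →ₗ[ℤ] J')
    (H : Set G) (c k : ℕ) (hfin : {y : J | k • y = 0}.Finite)
    (hc : ∀ y : J, k • y = 0 → u y = 0 → (∀ σ ∈ H, σ • y = y) → c • y = 0)
    (m : O ⊗[ℤ] J) (hm : (k : O) • m = 0) (hum : u.baseChange O m = 0)
    (hfix : ∀ σ ∈ H, galBC O J σ m = m) : (c : O) • m = 0 := by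
  classical
  -- the finite index set: the points of `J[k]` moved by `H`
  let I₁ : Type _ := {y : {y : J // k • y = 0} // ∃ σ ∈ H, σ • y.1 ≠ y.1}
  haveI : Finite {y : J // k • y = 0} := hfin.to_subtype
  haveI : Finite I₁ := Subtype.finite
  let s : I₁ → G := fun i => i.2.choose
  have hsH : ∀ i : I₁, s i ∈ H := fun i => i.2.choose_spec.1
  have hsne : ∀ i : I₁, s i • i.1.1 ≠ i.1.1 := fun i => i.2.choose_spec.2
  -- the map `Φ`
  let w : J →ₗ[ℤ] J' × (I₁ → J) :=
    LinearMap.prod u (LinearMap.pi fun i => galLinZ J (s i) - LinearMap.id)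
  have hwm : w.baseChange O m = 0 := by
    refine bcProd_eq_zero _ _ m hum (bcPi_eq_zero _ m fun i => ?_)
    rw [LinearMap.baseChange_sub, LinearMap.baseChange_id, LinearMap.sub_apply,
      LinearMap.id_apply, ← galBC_apply, hfix _ (hsH i), sub_self]
  have h := tc_baseChange_eq_zero_of_torsion_of_ker O k w ((c : ℤ) • (LinearMap.id : J →ₗ[ℤ] J))
    (fun y hy hwy => by
      have hu0 : u y = 0 := congrArg Prod.fst hwy
      have hall : ∀ i : I₁, s i • y - y = 0 := fun i => congrFun (congrArg Prod.snd hwy) i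
      have hfixy : ∀ σ ∈ H, σ • y = y := by
        intro σ hσ
        by_contra hne
        have hi := hall ⟨⟨y, hy⟩, σ, hσ, hne⟩
        exact hsne ⟨⟨y, hy⟩, σ, hσ, hne⟩ (sub_eq_zero.mp hi)
      have := hc y hy hu0 hfixy
      simpa using this) m hm hwm
  rw [LinearMap.baseChange_smul, LinearMap.baseChange_id, LinearMap.smul_apply,
    LinearMap.id_apply] at h
  rw [natCast_smul_tensor]
  exact h

end Flat

/-! ### Bezout -/

/-- killed by `c ≠ 0` and by `p ^ k`  ⟹  killed by `p ^ c`. -/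
theorem pow_smul_eq_zero_of_smul_eq_zero {O : Type*} [CommRing O] {M : Type*} [AddCommGroup M]
    [Module O M] {p : ℕ} (hp : p.Prime) {c : ℕ} (hc : c ≠ 0) (k : ℕ) (m : M)
    (h1 : (c : O) • m = 0) (h2 : (p : O) ^ k • m = 0) : (p : O) ^ c • m = 0 := by
  -- the gcd kills `m`
  have hd : ((Nat.gcd c (p ^ k) : ℕ) : O) • m = 0 := by
    have hb := Nat.gcd_eq_gcd_ab c (p ^ k)
    have hb' : ((Nat.gcd c (p ^ k) : ℕ) : O)
        = (c : O) * ((Nat.gcdA c (p ^ k) : ℤ) : O) + (p : O) ^ k * ((Nat.gcdB c (p ^ k) : ℤ) : O) := by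
      have := congrArg (fun z : ℤ => (z : O)) hb
      simpa using this
    rw [hb', add_smul, mul_comm (c : O), mul_smul, h1, smul_zero, mul_comm ((p : O) ^ k), mul_smul,
      h2, smul_zero, add_zero]
  obtain ⟨j, -, hj⟩ := (Nat.dvd_prime_pow hp).mp (Nat.gcd_dvd_right c (p ^ k))
  have hjc : j ≤ c := by
    have h3 : p ^ j ≤ c := by
      rw [← hj]
      exact Nat.le_of_dvd (Nat.pos_of_ne_zero hc) (Nat.gcd_dvd_left c (p ^ k))
    exact (Nat.lt_pow_self hp.one_lt).le.trans h3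
  rw [hj, Nat.cast_pow] at hd
  have e : (p : O) ^ c = (p : O) ^ (c - j) * (p : O) ^ j := by
    rw [← pow_add, Nat.sub_add_cancel hjc]
  rw [e, mul_smul, hd, smul_zero]

/-! ### the lattice -/

/-- **Conditional transfer with the fixed-vector clause.** -/
theorem exists_eigenLattice_transfer_fix
    {O : Type} [CommRing O] [IsDomain O] [IsDiscreteValuationRing O]
    [IsAdicComplete (maximalIdeal O) O] [CharZero O]
    {p : ℕ} (hp : p.Prime) (hpO : (p : O) ∈ maximalIdeal O)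
    {J : Type} [AddCommGroup J] {G : Type} [Group G] [DistribMulAction G J]
    {ι : Type} (T : ι → Module.End ℤ J) (c : ι → O)
    (hT : ∀ i (σ : G) (x : J), T i (σ • x) = σ • T i x)
    (hfinAll : ∀ n : ℕ, {x : J | p ^ n • x = 0}.Finite)
    (μ : ∀ n, Submodule.torsionBy ℤ J ((p ^ (n + 1) : ℕ) : ℤ) →ₗ[ℤ]
      Submodule.torsionBy ℤ J ((p ^ n : ℕ) : ℤ))
    (hμ : ∀ n (y : Submodule.torsionBy ℤ J ((p ^ (n + 1) : ℕ) : ℤ)),
      ((μ n y : Submodule.torsionBy ℤ J ((p ^ n : ℕ) : ℤ)) : J) = (p : ℤ) • (y : J))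
    (Tt : ∀ (_ : ι) (n : ℕ), Submodule.torsionBy ℤ J ((p ^ n : ℕ) : ℤ) →ₗ[ℤ]
      Submodule.torsionBy ℤ J ((p ^ n : ℕ) : ℤ))
    (hTt : ∀ i n (y : Submodule.torsionBy ℤ J ((p ^ n : ℕ) : ℤ)),
      ((Tt i n y : Submodule.torsionBy ℤ J ((p ^ n : ℕ) : ℤ)) : J) = T i (y : J))
    (x : (n : ℕ) → O ⊗[ℤ] Submodule.torsionBy ℤ J ((p ^ n : ℕ) : ℤ))
    (hx0 : ∃ n, x n ≠ 0)
    (hcompat : ∀ n, (μ n).baseChange O (x (n + 1)) = x n)
    (heig : ∀ i n, (Tt i n).baseChange O (x n) = c i • x n)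
    -- the kernel condition
    {J' : Type} [AddCommGroup J'] (u : J →ₗ[ℤ] J')
    (hu : ∀ (σ : G) (y : J), u y = 0 → u (σ • y) = 0)
    (hux : ∀ n, (u ∘ₗ (Submodule.torsionBy ℤ J ((p ^ n : ℕ) : ℤ)).subtype).baseChange O (x n) = 0) :
    ∃ (Λ : Type) (_ : AddCommGroup Λ) (_ : Module O Λ) (_ : Module.Free O Λ)
      (_ : Module.Finite O Λ) (_ : Nontrivial Λ) (ρ : G →* Module.End O Λ),
      (∀ (n : ℕ) (σ : G), (∀ y : J, p ^ n • y = 0 → σ • y = y) →
          ∀ v : Λ, ρ σ v - v ∈ (maximalIdeal O ^ n) • (⊤ : Submodule O Λ)) ∧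
      (∀ σ : G, (∀ (n : ℕ) (y : J), p ^ n • y = 0 → σ • y = y) → ρ σ = 1) ∧
      (∀ (σ : G) (i : ι) (ℓ : ℕ),
          (∀ (n : ℕ) (y : J), p ^ n • y = 0 → σ • σ • y - T i (σ • y) + ℓ • y = 0) →
          ρ σ * ρ σ - c i • ρ σ + (ℓ : O) • (1 : Module.End O Λ) = 0) ∧
      (∀ l : List (ℤ × G),
          (∀ (n : ℕ) (y : J), p ^ n • y = 0 → u y = 0 →
            (l.map fun ag => ag.1 • (ag.2 • y)).sum = 0) →
          (l.map fun ag => ag.1 • ρ ag.2).sum = 0) ∧
      (∀ (H : Set G) (d : ℕ), d ≠ 0 →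
          (∀ (n : ℕ) (y : J), p ^ n • y = 0 → u y = 0 → (∀ σ ∈ H, σ • y = y) → d • y = 0) →
          ∀ v : Λ, (∀ σ ∈ H, ρ σ v = v) → v = 0) := by
  have hfin : {x : J | p • x = 0}.Finite := by
    have := hfinAll 1
    simpa using this
  have hπ0 : (p : O) ≠ 0 := Nat.cast_ne_zero.mpr hp.ne_zero
  have hfg : (Submodule.torsionBy O (O ⊗[ℤ] J) (p : O)).FG := torsionBy_tensor_fg O p hfin
  have hcomm : ∀ (σ : G) (i : ι) (m : O ⊗[ℤ] J),
      (T i).baseChange O (galBC O J σ m) = galBC O J σ ((T i).baseChange O m) :=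
    fun σ i m => galBC_comm O (T i) (hT i) σ m
  have hstab : ∀ (σ : G) (m : O ⊗[ℤ] J), u.baseChange O m = 0 →
      u.baseChange O (galBC O J σ m) = 0 := by
    intro σ m hm
    rw [galBC_apply, ← LinearMap.comp_apply, ← LinearMap.baseChange_comp]
    exact tc_baseChange_eq_zero_of_ker O u (u ∘ₗ galLinZ J σ) (fun y hy => hu σ y hy) m hm
  have hcast : ∀ (n : ℕ) (m : O ⊗[ℤ] J), (p : O) ^ n • m = 0 →
      ((p ^ n : ℕ) : O) • m = 0 := fun n m hm => by
    rw [Nat.cast_pow]; exact hm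
  obtain ⟨X, hX, hXne⟩ :=
    tc_exists_mem_condTate_ne_zero T c μ hμ Tt hTt x hx0 hcompat heig u hux
  refine ⟨tcCondTate (p : O) (fun i => (T i).baseChange O) c (u.baseChange O),
    inferInstance, inferInstance,
    tcCondTate_free hpO hπ0 hfg, tcCondTate_finite hpO hπ0 hfg,
    ⟨⟨⟨X, hX⟩, 0, fun h => hXne (congrArg Subtype.val h)⟩⟩,
    tcCondTateRep (galBC O J) hcomm hstab, ?_, ?_, ?_, ?_, ?_⟩
  · intro n σ hfix v
    exact tcCondTateRep_sub_mem (galBC O J) hcomm hstab hpO hπ0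
      (fun m hm => galBC_fix O (p ^ n) σ hfix m (hcast n m hm)) v
  · intro σ hfix
    apply tcCondTateRep_eq_one
    intro n m hm
    exact galBC_fix O (p ^ n) σ (hfix n) m (hcast n m hm)
  · intro σ i ℓ hq
    exact tcCondTateRep_quadratic (h := fun i => (T i).baseChange O) (galBC O J) hcomm hstab i
      (ℓ : O) (fun n m hm => galBC_quadratic O (p ^ n) σ (T i) ℓ (hq n) m (hcast n m hm))
  · intro l hl
    apply tcCondTateRep_list_eq_zero
    intro n m hm hum
    rw [← listLinZ_baseChange]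
    exact tc_baseChange_eq_zero_of_torsion_of_ker O (p ^ n) u (listLinZ l)
      (fun y hy huy => by rw [listLinZ_apply]; exact hl n y hy huy) m (hcast n m hm) hum
  · intro H d hd hH v hv
    apply Subtype.ext
    funext n
    show v.1 n = 0
    -- `v n = p ^ d • v (n + d)`
    have h1 : (p : O) ^ d • v.1 (n + d) = v.1 n := tate_pow_smul v.2.1.1 d n
    rw [← h1]
    have hm : (p : O) ^ (n + d) • v.1 (n + d) = 0 := tcCondTate_pow_smul_self v (n + d)
    have hum : u.baseChange O (v.1 (n + d)) = 0 := v.2.2 (n + d)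
    have hfixm : ∀ σ ∈ H, galBC O J σ (v.1 (n + d)) = v.1 (n + d) := by
      intro σ hσ
      have := congrArg (fun w : tcCondTate (p : O) (fun i => (T i).baseChange O) c
        (u.baseChange O) => w.1 (n + d)) (hv σ hσ)
      exact this
    have hdm : (d : O) • v.1 (n + d) = 0 :=
      fix_smul_eq_zero_of_torsion_of_ker O u H d (p ^ (n + d)) (hfinAll (n + d))
        (hH (n + d)) (v.1 (n + d)) (hcast (n + d) _ hm) hum hfixm
    exact pow_smul_eq_zero_of_smul_eq_zero (O := O) (M := O ⊗[ℤ] J) hp hd (n + d)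
      (v.1 (n + d)) hdm hm

end Fermat.Agent.S36B
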