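import Fermat.Agent.S36.Bridge.Endgame
import Fermat.Agent.S36.Bridge.TransferFix
import Fermat.Agent.S35.LatticeCond

set_option autoImplicit false
set_option linter.unusedSectionVars false
set_option linter.style.haveILetI false

/-!
# S36 bridge, BR-4 (generic half): the `FrobLattice` without inertia-fixed vectors  (helper8)

Input: an eigen-class `x n ∈ 𝒪 ⊗ J₀(M)[pⁿ]` killed by a `G_ℚ`-stable kernel condition
`u : J₀(M) → J'`, and (CORE) for `u`: at every prime `q ≠ p` with `q² ‖ M` there are `c ≠ 0`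
and a place `P` over `q` such that every `y ∈ J₀(M)[pⁿ]` (any `n`) with `u y = 0` which is
fixed by the inertia group at `P` is killed by `c`.
Output: a `FrobLattice` with `NoInertiaFixed` (the input of `S36/Bridge/Endgame.lean`).

This is the analogue of `S35.exists_frobLattice_quartic`; the proof is the same with
`exists_eigenLattice_transfer_fix` in place of `exists_eigenLattice_transfer_cond`.
-/

noncomputable section

namespace Fermat.Agent.S36B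

open ModularCurve AlgebraicCurve IsLocalRing
open scoped TensorProduct
open Fermat.Agent.S30 Fermat.Agent.S30Tate Fermat.Agent.S35

/-- **(CORE) for a kernel map `u`** at level `M`, residue characteristic `p`. -/
def CoreFor (p M : ℕ) [NeZero M] {J' : Type} [AddCommGroup J'] (u : JZero M →ₗ[ℤ] J') : Prop :=
  ∀ q : ℕ, q.Prime → q ≠ p → M.factorization q = 2 →
    ∃ c : ℕ, c ≠ 0 ∧ ∃ P : ValuationSubring (AlgebraicClosure ℚ), P.LiesOverPrime q ∧
      ∀ (n : ℕ) (y : JZero M), p ^ n • y = 0 → u y = 0 →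
        (∀ σ ∈ P.inertiaSubgroupIn ℚ, σ • y = y) → c • y = 0

/-- **BR-4, generic half.** -/
theorem exists_frobLattice_nofix (M : ℕ) [NeZero M]
    (hFin : F3.TorsionFinite M)
    (hUnr : F3.TorsionUnramified M) (hFrob : F3.TorsionFrobQuadratic M)
    (hOpen : F3.TorsionOpenStab M) (hComm : F3.HeckeGaloisComm M)
    (p : ℕ) [Fact p.Prime] (S : Finset ℕ) (hpS : p ∈ S)
    (hNS : ∀ q : ℕ, q.Prime → q ∣ M → q ∈ S)
    (𝒪 : Type) [CommRing 𝒪] [IsDomain 𝒪] [IsDiscreteValuationRing 𝒪]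
    [IsAdicComplete (maximalIdeal 𝒪) 𝒪] [Finite (ResidueField 𝒪)] [CharZero 𝒪]
    (hp𝒪 : (p : 𝒪) ∈ maximalIdeal 𝒪) (χ : CuspForm.heckeAlgebra M 2 (↑S : Set ℕ) →+* 𝒪)
    -- the eigen-class
    (x : (n : ℕ) → 𝒪 ⊗[ℤ] F3.Jtors M (p ^ n))
    (hx0 : ∃ n, x n ≠ 0)
    (hcompat : ∀ n, (mulPTors M p n).baseChange 𝒪 (x (n + 1)) = x n)
    (heig : ∀ (n ℓ : ℕ) (hℓ : ℓ.Prime) (hℓN : ¬ ℓ ∣ M) (hℓS : ℓ ∉ (↑S : Set ℕ)),
      (F3.heckeTors M (p ^ n) ⟨ℓ, hℓ⟩).baseChange 𝒪 (x n) =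
        χ (CuspForm.heckeAlgebra.T hℓ hℓN hℓS) • x n)
    -- the kernel condition
    {J' : Type} [AddCommGroup J'] (u : JZero M →ₗ[ℤ] J')
    (hu : ∀ (σ : GQ) (y : JZero M), u y = 0 → u (σ • y) = 0)
    (hux : ∀ n, (u ∘ₗ (F3.Jtors M (p ^ n)).subtype).baseChange 𝒪 (x n) = 0)
    -- (CORE)
    (hcore : CoreFor p M u) :
    ∃ L : FrobLattice p M S 𝒪 (heckeEigenvalue χ), NoInertiaFixed p M L.ρ := by
  have hp : p.Prime := Fact.out
  obtain ⟨Λ, _, _, _, _, _, ρ, hcont, hunr, hfrob, -, hfix⟩ :=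
    exists_eigenLattice_transfer_fix (O := 𝒪) (G := GQ) (J := JZero M) (ι := HeckeIdx M S)
      hp hp𝒪
      (fun i => heckeOperatorBar M ⟨i.1, i.2.1⟩)
      (fun i => χ (CuspForm.heckeAlgebra.T i.2.1 i.2.2.1 i.2.2.2))
      (fun i σ y => hComm ⟨i.1, i.2.1⟩ σ y)
      (fun n => hFin (p ^ n) (pow_pos hp.pos n))
      (fun n => mulPTors M p n)
      (fun n y => mulPTors_coe M p n y)
      (fun i n => F3.heckeTors M (p ^ n) ⟨i.1, i.2.1⟩)
      (fun i n y => rfl)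
      x hx0 hcompat
      (fun i n => heig n i.1 i.2.1 i.2.2.1 i.2.2.2)
      u hu hux
  have hnofix : ∀ q : ℕ, q.Prime → q ≠ p → M.factorization q = 2 →
      ∃ P : ValuationSubring (AlgebraicClosure ℚ), P.LiesOverPrime q ∧
        ∀ v : Λ, (∀ σ ∈ P.inertiaSubgroupIn ℚ, ρ σ v = v) → v = 0 := by
    intro q hq hqp hq2
    obtain ⟨c, hc, P, hP, hcP⟩ := hcore q hq hqp hq2
    refine ⟨P, hP, fun v hv => ?_⟩
    refine hfix {σ : GQ | σ ∈ P.inertiaSubgroupIn ℚ} c hc ?_ v ?_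
    · intro n y hy huy hσ
      exact hcP n y hy huy (fun σ hσ' => hσ σ hσ')
    · intro σ hσ
      exact hv σ hσ
  refine ⟨{
    Λ := Λ
    ρ := ρ
    cont := ?_
    unram := ?_
    frob := ?_ }, hnofix⟩
  · -- adic continuity
    intro n
    have hpos : 0 < p ^ n := pow_pos hp.pos n
    haveI : Finite {y : JZero M // p ^ n • y = 0} := (hFin (p ^ n) hpos).to_subtype
    choose L hLfin hL using fun y : {y : JZero M // p ^ n • y = 0} => hOpen (p ^ n) hpos y.1 y.2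
    haveI : ∀ y, FiniteDimensional ℚ (L y) := hLfin
    refine ⟨⨆ y, L y, inferInstance, fun σ hσ v => ?_⟩
    have hfix : ∀ y : JZero M, p ^ n • y = 0 → σ • y = y := fun y hy =>
      hL ⟨y, hy⟩ σ (fun z hz => hσ z (le_iSup L ⟨y, hy⟩ hz))
    exact hcont n σ hfix v
  · -- unramified
    intro q hq hqN hqp P hP σ hσ
    exact hunr σ (fun n y hy =>
      hUnr (p ^ n) q hq (not_dvd_mul_pow hp hq hqN hqp n) P hP σ hσ y hy)
  · -- Frobenius relation
    intro ℓ hℓ hℓS A hA σ hσ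
    have hℓS' : ℓ ∉ (↑S : Set ℕ) := fun h => hℓS (Finset.mem_coe.mp h)
    have hℓN : ¬ ℓ ∣ M := fun h => hℓS (hNS ℓ hℓ h)
    have hℓp : ℓ ≠ p := fun h => hℓS (h ▸ hpS)
    rw [heckeEigenvalue_eq χ hℓ hℓN hℓS']
    exact hfrob σ (⟨ℓ, hℓ, hℓN, hℓS'⟩ : HeckeIdx M S) ℓ (fun n y hy =>
      hFrob (p ^ n) ℓ hℓ (not_dvd_mul_pow hp hℓ hℓN hℓp n) A hA σ hσ y hy)

end Fermat.Agent.S36B
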