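/-
Cluster G (S36), BRIDGE seat N-NV (helper36): `newLevel : NewLevel`.

The eigen-character of a newform of level `M` does not occur in `O ⊗ Hom_par(Γ₀(N₁), ℤ)` for a
proper divisor `N₁ ∣ M`: port of `S35.nv_baseChange_eq_zero` (helper23), with weak strong
multiplicity one `S35SMO.smo_weak` (helper68).
-/
import Mathlib
import Fermat.Agent.S36.Bridge.Defs
import Fermat.Agent.S35.NewVector
import Fermat.Agent.S35.SMO

set_option autoImplicit false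
set_option linter.unusedSectionVars false
set_option linter.style.haveILetI false

noncomputable section

namespace Fermat.Agent.S36B

open ModularCurve AlgebraicCurve CongruenceSubgroup IsLocalRing ModularFormClass CuspForm
open Fermat.Agent.F3 Fermat.Agent.F3EC Fermat.Agent.F3Deg Fermat.Agent.F3DegW
open Fermat.Agent.S35
open scoped TensorProduct

/-- **(N-NV)** the eigen-character of a newform of level `M` does not occur at a proper divisor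
level `N₁ ∣ M`. -/
theorem newLevel : NewLevel := by
  intro M N₁ _ _ hdvd hne g hg S hS O _ _ _ chig hchig iota y hy
  classical
  by_contra hy0
  haveI : Module.Finite ℤ (heckeAlgebra M 2 (↑S : Set ℕ)) :=
    Fermat.Agent.S22.result M 2 ↑S
  haveI : Algebra.IsIntegral ℤ chig.range := by
    refine ⟨fun z => ?_⟩
    obtain ⟨t, rfl⟩ := chig.rangeRestrict_surjective z
    exact (Algebra.IsIntegral.isIntegral (R := ℤ) t).map chig.rangeRestrict.toIntAlgHom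
  have hι : Function.Injective iota := nv_injective_of_isIntegral iota
  have hNS : ∀ r : ℕ, r.Prime → r ∣ N₁ → r ∈ (↑S : Set ℕ) := fun r hr hrN =>
    Finset.mem_coe.mpr (hS r hr (hrN.trans hdvd))
  have hnd : ∀ ℓ : ℕ, ℓ.Prime → ℓ ∉ (↑S : Set ℕ) → ¬ ℓ ∣ M := fun ℓ hℓ hℓS h =>
    hℓS (Finset.mem_coe.mpr (hS ℓ hℓ h))
  set r : ℕ → chig.range := fun ℓ =>
    if h : ℓ.Prime ∧ ¬ ℓ ∣ M ∧ ℓ ∉ (↑S : Set ℕ) then
      chig.rangeRestrict (heckeAlgebra.T h.1 h.2.1 h.2.2) else 0 with hr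
  have hrℓ : ∀ (ℓ : ℕ) (hℓ : ℓ.Prime) (hℓM : ¬ ℓ ∣ M) (hℓS : ℓ ∉ (↑S : Set ℕ)),
      r ℓ = chig.rangeRestrict (heckeAlgebra.T hℓ hℓM hℓS) := fun ℓ hℓ hℓM hℓS => by
    simp only [hr, dif_pos (show ℓ.Prime ∧ ¬ ℓ ∣ M ∧ ℓ ∉ (↑S : Set ℕ) from ⟨hℓ, hℓM, hℓS⟩)]
  have hyeig : ∀ (ℓ : ℕ) (hℓ : ℓ.Prime), ¬ ℓ ∣ N₁ → ℓ ∉ (↑S : Set ℕ) →
      (heckeHom N₁ ⟨ℓ, hℓ⟩).baseChange O y = iota (r ℓ) • y := by
    intro ℓ hℓ _ hℓS
    have hℓM := hnd ℓ hℓ hℓS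
    rw [hy ℓ hℓ hℓM hℓS, hrℓ ℓ hℓ hℓM hℓS]
    rfl
  obtain ⟨Ψ, hΨ⟩ := nv_exists_character_of_eigenvector hNS iota hι chig.range.subtype r y hy0 hyeig
  obtain ⟨g₀, hg₀, hg₀Ψ⟩ := nv_exists_eigenform_of_character hNS Ψ
  have hagree : ∀ ℓ : ℕ, ℓ.Prime → ℓ ∉ S → qCoeff g ℓ = qCoeff g₀ ℓ := by
    intro ℓ hℓ hℓS
    have hℓS' : ℓ ∉ (↑S : Set ℕ) := fun h => hℓS (Finset.mem_coe.mp h)
    have hℓM := hnd ℓ hℓ hℓS'
    have hℓN : ¬ ℓ ∣ N₁ := fun h => hℓM (h.trans hdvd)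
    rw [hg₀Ψ ℓ hℓ hℓN hℓS', hΨ ℓ hℓ hℓN hℓS', hrℓ ℓ hℓ hℓM hℓS', ← hchig ℓ hℓ hℓM hℓS']
    rfl
  exact Fermat.Agent.S35SMO.not_isNewform_of_agree hdvd hne hg.1 hg₀ S hagree hg

end Fermat.Agent.S36B
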