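/-
Cluster G (S36), BRIDGE, BR-4 (helper36): the lattice input of S36 from (CORE).

For a level `M` and a prime `p` let `SqIdx M p` be the set of primes `q ≠ p` with `q² ∥ M`.
For `i : SqIdx M p` write `M = N₁ q` (`N₁ = M / q`, `q ∣ N₁`) and choose Atkin–Lehner data `D`
with `D.Q = q²`, `D.R = M / q²`.

* `sqU M p : J₀(M) →ₗ[ℤ] ∏_i J₀(M/q)²`, `y ↦ (α_* y, α_* w_* y)_i`  (`w = w_{q²}`);
* `sqU_smul`      (`hu`)    : `ker (sqU M p)` is Galois-stable;
* `sqU_newClass`  (`hux`)   : the eigen-class of a newform is killed by `𝒪 ⊗ sqU M p`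
                              (`newLevel` + the `κ` trick);
* `coreFor_sqU`   (`hcore`) : (CORE) for `sqU`, from `CoreAll`;
* `s36LatticeInput_of`, `s36Statement_of_core` : `CoreAll → PushAlphaHecke → S36Statement`.
-/
import Mathlib
import Fermat.Agent.S36.Bridge.KappaTrick
import Fermat.Agent.S36.Bridge.NewLevel
import Fermat.Agent.S36.Bridge.LatticeFix
import Fermat.Agent.S35.AssemblyNew

set_option autoImplicit false
set_option linter.unusedSectionVars false
set_option linter.style.haveILetI false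

noncomputable section

namespace Fermat.Agent.S36B

open ModularCurve AlgebraicCurve CongruenceSubgroup IsLocalRing
open Fermat.Agent.F3 Fermat.Agent.F3EC Fermat.Agent.F3Deg Fermat.Agent.F3DegW Fermat.Agent.LDeg
open Fermat.Agent.S35
open Fermat.Agent.AtkinLehner (ALData)
open scoped TensorProduct

local notation "Qb" => AlgebraicClosure ℚ

/-! ### the index set and the data -/

/-- the primes `q ≠ p` with `q² ∥ M`. -/
abbrev SqIdx (M p : ℕ) : Type := {q : ℕ // q.Prime ∧ q ≠ p ∧ M.factorization q = 2}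

namespace SqIdx

variable {M p : ℕ} [NeZero M] (i : SqIdx M p)

theorem prime : i.1.Prime := i.2.1
theorem ne_p : i.1 ≠ p := i.2.2.1
theorem fact : M.factorization i.1 = 2 := i.2.2.2

theorem sq_dvd : i.1 ^ 2 ∣ M :=
  (i.prime.pow_dvd_iff_le_factorization (NeZero.ne M)).mpr (le_of_eq i.fact.symm)

theorem dvd : i.1 ∣ M := (dvd_pow_self i.1 two_ne_zero).trans i.sq_dvd

/-- `M = (M / q) * q`. -/
theorem level_eq : M = M / i.1 * i.1 := (Nat.div_mul_cancel i.dvd).symm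

theorem neZero_q : NeZero i.1 := ⟨i.prime.ne_zero⟩

theorem neZero_N : NeZero (M / i.1) :=
  ⟨fun h => NeZero.ne M (by rw [i.level_eq, h, zero_mul])⟩

theorem div_ne : M / i.1 ≠ M := fun h =>
  (Nat.div_lt_self (Nat.pos_of_ne_zero (NeZero.ne M)) i.prime.one_lt).ne h

theorem div_dvd : M / i.1 ∣ M := Nat.div_dvd_of_dvd i.dvd

theorem sq_pos : 0 < i.1 ^ 2 := pow_pos i.prime.pos 2

theorem div_sq_pos : 0 < M / i.1 ^ 2 :=
  Nat.div_pos (Nat.le_of_dvd (Nat.pos_of_ne_zero (NeZero.ne M)) i.sq_dvd) i.sq_pos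

theorem coprime_sq : Nat.Coprime (i.1 ^ 2) (M / i.1 ^ 2) := by
  have h := Nat.coprime_ordCompl i.prime (NeZero.ne M)
  rw [i.fact] at h
  exact Nat.Coprime.pow_left 2 h

theorem exists_data : ∃ D : ALData, D.Q = i.1 ^ 2 ∧ D.R = M / i.1 ^ 2 :=
  ALData.exists_of_coprime i.sq_pos i.div_sq_pos i.coprime_sq

/-- the Atkin–Lehner data at `q²`. -/
def data : ALData := i.exists_data.choose

theorem data_Q : i.data.Q = i.1 ^ 2 := i.exists_data.choose_spec.1
theorem data_R : i.data.R = M / i.1 ^ 2 := i.exists_data.choose_spec.2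

theorem level_eq_data : M = i.data.Q * i.data.R := by
  rw [i.data_Q, i.data_R]
  exact (Nat.mul_div_cancel' i.sq_dvd).symm

instance finite (M p : ℕ) [NeZero M] : Finite (SqIdx M p) := by
  have hfin : {q : ℕ | q.Prime ∧ q ≠ p ∧ M.factorization q = 2}.Finite :=
    ((Finset.range (M + 1)).finite_toSet).subset fun q hq => by
      simp only [Finset.coe_range, Set.mem_Iio]
      have hdvd : q ∣ M := by
        refine (dvd_pow_self q two_ne_zero).trans ?_
        exact (hq.1.pow_dvd_iff_le_factorization (NeZero.ne M)).mpr (le_of_eq hq.2.2.symm)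
      exact Nat.lt_succ_of_le (Nat.le_of_dvd (Nat.pos_of_ne_zero (NeZero.ne M)) hdvd)
  exact hfin.to_subtype

/-- `α_*` at `q`. -/
def degA : JZero M →+ JZero (M / i.1) :=
  haveI := i.neZero_q
  haveI := i.neZero_N
  pushAlphaAt i.level_eq

/-- `α_* ∘ w_*` at `q`. -/
def degB : JZero M →+ JZero (M / i.1) :=
  i.degA.comp (pushWAt i.data i.level_eq_data)

/-- the transfer at `q`. -/
def corA : HomPar M →ₗ[ℤ] HomPar (M / i.1) :=
  haveI := i.neZero_q
  haveI := i.neZero_N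
  coresParAt i.level_eq

/-- the transfer twisted by `w_{q²}`. -/
def corB : HomPar M →ₗ[ℤ] HomPar (M / i.1) :=
  i.corA ∘ₗ wPar i.data i.level_eq_data

theorem degA_smul (σ : Qb ≃ₐ[ℚ] Qb) (y : JZero M) : i.degA (σ • y) = σ • i.degA y :=
  haveI := i.neZero_q
  haveI := i.neZero_N
  pushAlphaAt_smul i.level_eq σ y

theorem degB_smul (σ : Qb ≃ₐ[ℚ] Qb) (y : JZero M) : i.degB (σ • y) = σ • i.degB y := by
  unfold degB
  rw [AddMonoidHom.comp_apply, pushWAt_smul, degA_smul]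
  rfl

theorem degA_kappaC (n : ℕ) (c : HomPar M) :
    haveI := i.neZero_N
    i.degA ((kappaC M n c : Jtors M n) : JZero M) =
      ((kappaC (M / i.1) n (i.corA c) : Jtors (M / i.1) n) : JZero (M / i.1)) :=
  haveI := i.neZero_q
  haveI := i.neZero_N
  pushAlphaAt_kappaC_gen i.level_eq n c

theorem degB_kappaC (n : ℕ) (c : HomPar M) :
    haveI := i.neZero_N
    i.degB ((kappaC M n c : Jtors M n) : JZero M) =
      ((kappaC (M / i.1) n (i.corB c) : Jtors (M / i.1) n) : JZero (M / i.1)) :=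
  haveI := i.neZero_q
  haveI := i.neZero_N
  pushAlphaAt_pushWAt_kappaC_gen i.level_eq i.data i.level_eq_data n c

theorem corA_heckeHom (hPA : PushAlphaHecke) (ℓ : Nat.Primes) (hℓ : ¬ (ℓ : ℕ) ∣ M)
    (c : HomPar M) :
    haveI := i.neZero_N
    i.corA (heckeHom M ℓ c) = heckeHom (M / i.1) ℓ (i.corA c) :=
  haveI := i.neZero_q
  haveI := i.neZero_N
  coresParAt_heckeHom hPA i.level_eq i.prime ℓ hℓ c

theorem corB_heckeHom (hPA : PushAlphaHecke) (ℓ : Nat.Primes) (hℓ : ¬ (ℓ : ℕ) ∣ M)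
    (c : HomPar M) :
    haveI := i.neZero_N
    i.corB (heckeHom M ℓ c) = heckeHom (M / i.1) ℓ (i.corB c) := by
  haveI := i.neZero_N
  show i.corA (wPar i.data i.level_eq_data (heckeHom M ℓ c)) =
    heckeHom (M / i.1) ℓ (i.corA (wPar i.data i.level_eq_data c))
  rw [wPar_heckeHom i.data i.level_eq_data ℓ hℓ c, i.corA_heckeHom hPA ℓ hℓ]

end SqIdx

/-! ### the kernel map -/

/-- the target of the kernel map. -/
abbrev SqTarget (M p : ℕ) : Type := (i : SqIdx M p) → JZero (M / i.1) × JZero (M / i.1)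

/-- **the kernel map** `u`: `y ↦ (α_* y, α_* w_* y)` at all primes `q ≠ p`, `q² ∥ M`. -/
def sqU (M p : ℕ) [NeZero M] : JZero M →ₗ[ℤ] SqTarget M p :=
  LinearMap.pi fun i => LinearMap.prod i.degA.toIntLinearMap i.degB.toIntLinearMap

variable {M p : ℕ} [NeZero M]

theorem sqU_apply (y : JZero M) (i : SqIdx M p) : sqU M p y i = (i.degA y, i.degB y) := rfl

theorem sqU_eq_zero_iff (y : JZero M) :
    sqU M p y = 0 ↔ ∀ i : SqIdx M p, i.degA y = 0 ∧ i.degB y = 0 := by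
  constructor
  · intro h i
    have := congrFun h i
    rw [sqU_apply] at this
    exact ⟨congrArg Prod.fst this, congrArg Prod.snd this⟩
  · intro h
    funext i
    rw [sqU_apply, (h i).1, (h i).2]
    rfl

/-- **`hu`**: the kernel of `u` is Galois-stable. -/
theorem sqU_smul (σ : Qb ≃ₐ[ℚ] Qb) (y : JZero M) (h : sqU M p y = 0) :
    sqU M p (σ • y) = 0 := by
  rw [sqU_eq_zero_iff] at h ⊢
  intro i
  have h0 : σ • (0 : JZero (M / i.1)) = 0 := smul_zero (A := JZero (M / i.1)) σ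
  exact ⟨by rw [i.degA_smul, (h i).1]; exact h0, by rw [i.degB_smul, (h i).2]; exact h0⟩

/-- **`hux`**, abstract form: an `x₀` killed by all transfers has its eigen-class killed
by `𝒪 ⊗ u`. -/
theorem sqU_newClass_of {O : Type*} [CommRing O] {x₀ : O ⊗[ℤ] HomPar M}
    (hx₀ : ∀ i : SqIdx M p, i.corA.baseChange O x₀ = 0 ∧ i.corB.baseChange O x₀ = 0) (n : ℕ) :
    (sqU M p ∘ₗ (Jtors M (p ^ n)).subtype).baseChange O (newClass M p O x₀ n) = 0 := by
  refine newClass_ker (sqU M p)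
    (LinearMap.pi fun i : SqIdx M p => LinearMap.prod i.corA i.corB) n
    (LinearMap.pi fun i : SqIdx M p =>
      haveI := i.neZero_N
      (LinearMap.prodMap ((Jtors (M / i.1) (p ^ n)).subtype ∘ₗ kappaC (M / i.1) (p ^ n))
        ((Jtors (M / i.1) (p ^ n)).subtype ∘ₗ kappaC (M / i.1) (p ^ n))) ∘ₗ
        LinearMap.proj i) ?_ ?_
  · intro c
    funext i
    rw [sqU_apply, i.degA_kappaC, i.degB_kappaC]
    rfl
  · exact baseChange_pi_eq_zero _ x₀ fun i =>
      baseChange_prod_eq_zero _ _ x₀ (hx₀ i).1 (hx₀ i).2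

/-- a Hecke-equivariant map carries eigenvectors to eigenvectors (after base change). -/
theorem baseChange_eig_of_comm {O : Type*} [CommRing O] {H H' : Type*} [AddCommGroup H]
    [AddCommGroup H'] (τ : H →ₗ[ℤ] H') (T : H →ₗ[ℤ] H) (T' : H' →ₗ[ℤ] H')
    (hτ : ∀ c, τ (T c) = T' (τ c)) {a : O} {x : O ⊗[ℤ] H} (hx : T.baseChange O x = a • x) :
    T'.baseChange O (τ.baseChange O x) = a • τ.baseChange O x := by
  have hcomm : T'.baseChange O ∘ₗ τ.baseChange O = τ.baseChange O ∘ₗ T.baseChange O := by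
    rw [← LinearMap.baseChange_comp, ← LinearMap.baseChange_comp]
    congr 1
    refine LinearMap.ext fun c => ?_
    rw [LinearMap.comp_apply, LinearMap.comp_apply]
    exact (hτ c).symm
  have h1 := congrArg (fun f => f x) hcomm
  simp only [LinearMap.comp_apply] at h1
  rw [h1, hx, map_smul]

/-- **`hux`**: the eigen-class of a newform of level `M` is killed by `𝒪 ⊗ u`. -/
theorem sqU_newClass (hPA : PushAlphaHecke)
    (g : CuspForm (Gamma0 M) 2) (hg : g.IsNewform)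
    (S : Finset ℕ) (hS : ∀ r : ℕ, r.Prime → r ∣ M → r ∈ S)
    (O : Type) [CommRing O] [IsDomain O] [CharZero O]
    (chig : CuspForm.heckeAlgebra M 2 (↑S : Set ℕ) →+* ℂ)
    (hchig : ∀ (ℓ : ℕ) (hℓ : ℓ.Prime) (hℓM : ¬ ℓ ∣ M) (hℓS : ℓ ∉ (↑S : Set ℕ)),
      chig (CuspForm.heckeAlgebra.T hℓ hℓM hℓS) = ModularFormClass.qCoeff g ℓ)
    (iota : chig.range →+* O) (x₀ : O ⊗[ℤ] HomPar M)
    (hx : ∀ (ℓ : ℕ) (hℓ : ℓ.Prime) (hℓM : ¬ ℓ ∣ M) (hℓS : ℓ ∉ (↑S : Set ℕ)),
      (heckeHom M ⟨ℓ, hℓ⟩).baseChange O x₀ =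
        (iota.comp chig.rangeRestrict) (CuspForm.heckeAlgebra.T hℓ hℓM hℓS) • x₀) (n : ℕ) :
    (sqU M p ∘ₗ (Jtors M (p ^ n)).subtype).baseChange O (newClass M p O x₀ n) = 0 := by
  refine sqU_newClass_of (fun i => ?_) n
  haveI := i.neZero_q
  haveI := i.neZero_N
  constructor
  · exact newLevel M (M / i.1) i.div_dvd i.div_ne g hg S hS O chig hchig iota _
      (fun ℓ hℓ hℓM hℓS => baseChange_eig_of_comm i.corA (heckeHom M ⟨ℓ, hℓ⟩)
        (heckeHom (M / i.1) ⟨ℓ, hℓ⟩) (fun c => i.corA_heckeHom hPA ⟨ℓ, hℓ⟩ hℓM c)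
        (hx ℓ hℓ hℓM hℓS))
  · exact newLevel M (M / i.1) i.div_dvd i.div_ne g hg S hS O chig hchig iota _
      (fun ℓ hℓ hℓM hℓS => baseChange_eig_of_comm i.corB (heckeHom M ⟨ℓ, hℓ⟩)
        (heckeHom (M / i.1) ⟨ℓ, hℓ⟩) (fun c => i.corB_heckeHom hPA ⟨ℓ, hℓ⟩ hℓM c)
        (hx ℓ hℓ hℓM hℓS))

/-- **`hcore`**: (CORE) for the kernel map `sqU`, from `CoreAll`. -/
theorem coreFor_sqU (hcore : CoreAll) (hp : p.Prime) : CoreFor p M (sqU M p) := by
  intro q hq hqp hq2
  set i : SqIdx M p := ⟨q, hq, hqp, hq2⟩ with hi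
  haveI := i.neZero_q
  haveI := i.neZero_N
  obtain ⟨c, hc, P, hP, hcP⟩ :=
    hcore p M q hp hq hqp hq2 i.data i.data_Q i.level_eq_data i.level_eq
  refine ⟨c, hc, P, hP, fun n y hy huy hfix => ?_⟩
  have h12 := (sqU_eq_zero_iff y).mp huy i
  exact hcP n y hy h12.1 h12.2 hfix

/-! ### the lattice input -/

/-- **the lattice input of S36 from (CORE)** (and the commutation of `α_*` with `T_ℓ`). -/
theorem s36LatticeInput_of (hcore : CoreAll) (hPA : PushAlphaHecke) : S36LatticeInput := by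
  intro M _ g hg lam _ S O' _ _ _ _ _ _ hlamO' _ chig hchig iota hlamS hMS
  have hp : lam.Prime := Fact.out
  have hMS' : ∀ q : ℕ, q.Prime → q ∣ M → q ∈ (↑S : Set ℕ) := fun q hq hqM =>
    Finset.mem_coe.mpr (hMS q hq hqM)
  obtain ⟨x₀, hx₀, hx⟩ :=
    Fermat.Agent.F3EP.exists_eigenvector_homPar' hMS' (iota.comp chig.rangeRestrict)
  have hpu : ¬ IsUnit (lam : O') := fun hu => (IsLocalRing.mem_maximalIdeal _).mp hlamO' hu
  exact exists_frobLattice_nofix M
    (Fermat.Agent.F3TF.torsionFinite M)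
    (Fermat.Agent.GaussInt.torsionUnramified_of_keyLemmaAt
      (Fermat.Agent.GaussInt.keyLemmaAt_all M))
    (Fermat.Agent.GaussIntFP.torsionFrobQuadratic_of_keyLemmaAt
      (Fermat.Agent.GaussInt.keyLemmaAt_all M) (Fermat.Agent.F3W.heckeInputs_all M))
    (Fermat.Agent.F3.torsionOpenStab M) (Fermat.Agent.F3G.heckeGaloisComm M)
    lam S hlamS hMS O' hlamO' (iota.comp chig.rangeRestrict)
    (newClass M lam O' x₀)
    (newClass_ne_zero hp hpu hx₀)
    (fun n => newClass_compat hp x₀ n)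
    (fun n ℓ hℓ hℓN hℓS => newClass_eig ⟨ℓ, hℓ⟩ hℓN (hx ℓ hℓ hℓN hℓS) n)
    (sqU M lam)
    (fun σ y h => sqU_smul σ y h)
    (fun n => sqU_newClass hPA g hg S hMS O' chig hchig iota x₀ hx n)
    (coreFor_sqU hcore hp)

/-- **S36 from (CORE).** -/
theorem s36Statement_of_core (hcore : CoreAll) (hPA : PushAlphaHecke) : S36Statement :=
  s36Statement_of_lattice Fermat.Agent.F3.frobDensityLite
    (fun p _ 𝒪 _ _ _ _ _ _ hp => ⟨Fermat.Agent.Cyclo.cycloCharData (p := p) (𝒪 := 𝒪) hp⟩)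
    (s36LatticeInput_of hcore hPA)

end Fermat.Agent.S36B
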