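/-
Cluster G (S36), BRIDGE, seat N-DM1 (α-part).  Owner: helper17.

`pushAlphaHecke : PushAlphaHecke` : the degeneracy push-forward `α_* : J₀(N₀ q) → J₀(N₀)`
commutes with the Hecke operators `T_ℓ`, `ℓ ∤ N₀ q`, on `J₀(ℚ̄)`.

Proof (divisors): `T_ℓ = (α_ℓ)_* (β_ℓ)^*` at both levels; in the square
`F_{N₀}, F_{N₀ q}, F_{N₀ ℓ}, F_{N₀ q ℓ}` base change (helper84's DESC-COMM library) gives
`(β_ℓ)^* (α_q)_* = (α_q')_* (β_ℓ')^*`, and `α_q' ∘ α_ℓ = α_ℓ' ∘ α_q` (both are the inclusion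
`F_{N₀} ⊆ F_{N₀ q ℓ}`).
-/
import Fermat.Agent.S36.Bridge.Defs
import Fermat.Agent.E.Desc.Comm.Main

set_option autoImplicit false
set_option linter.unusedSectionVars false
set_option linter.unusedVariables false
set_option linter.style.haveILetI false
set_option synthInstance.maxHeartbeats 400000

noncomputable section

namespace Fermat.Agent.S36B

open AlgebraicCurve ModularCurve Fermat.Agent.EDescComm Fermat.Agent.F3Deg

local notation "Qb" => AlgebraicClosure ℚ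

/-- `α_*` commutes with the Hecke correspondence, on divisors (abstract form, from the data of
the two base change squares). -/
theorem pushforward_correspondence_of_commData
    {K E Lr Ls M : Type*} [Field K] [Field E] [Field Lr] [Field Ls] [Field M]
    [Algebra K E] [Algebra K Lr] [Algebra K Ls] [Algebra K M]
    [HasPrincipalDivisors K Lr] [HasPrincipalDivisors K Ls] [HasPrincipalDivisors K M]
    {αr βr : E →ₐ[K] Lr} {αs βs : E →ₐ[K] Ls} {As Bs : Lr →ₐ[K] M} {Ar Br : Ls →ₐ[K] M}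
    (h : CommData αr βr αs βs As Bs Ar Br)
    (hαr : αr.toRingHom.IsIntegral)
    (hαs : αs.toRingHom.IsIntegral) (hβs : βs.toRingHom.IsIntegral)
    (hAs : As.toRingHom.IsIntegral) (hBs : Bs.toRingHom.IsIntegral)
    (hAr : Ar.toRingHom.IsIntegral)
    (D : Divisor K Lr) :
    Divisor.pushforwardAlong αr hαr (Divisor.correspondence Bs As hBs hAs D) =
      Divisor.correspondence βs αs hβs hαs (Divisor.pushforwardAlong αr hαr D) := by
  simp only [Divisor.correspondence_apply]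
  rw [pullbackAlong_pushforwardAlong hαr hβs hAr hBs h.sq₂ h.normαr h.finAr h.normAr
      h.degE h.degLr h.approxLr,
    ← pushforwardAlong_comp αs Ar hαs hAr (isIntegral_comp αs Ar hαs hAr) h.degE h.degLs h.degM,
    ← pushforwardAlong_comp αr As hαr hAs (isIntegral_comp αr As hαr hAs) h.degE h.degLr h.degM]
  exact pushforwardAlong_eq_of_eq h.incl _ _ _

/-- `α_* ∘ T_ℓ = T_ℓ ∘ α_*` on `J₀`, `q ≠ ℓ` primes (`Along` form). -/
theorem pushAlpha_heckeOperatorAlong (N₀ q ℓ : ℕ) [NeZero N₀] [NeZero q] [NeZero ℓ]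
    (hq : q.Prime) (hℓ : ℓ.Prime) (hqℓ : q ≠ ℓ) (y : JZero (N₀ * q)) :
    pushAlpha N₀ q (heckeOperatorAlong Qb (N₀ * q) ℓ y) =
      heckeOperatorAlong Qb N₀ ℓ (pushAlpha N₀ q y) := by
  have h := commData_incl_scale N₀ q ℓ hq hℓ hqℓ
  rw [← heckeAlphaBar_eq_inclF N₀ q, ← heckeBetaBar_eq_scaleF N₀ q, ← heckeAlphaBar_eq_inclF N₀ ℓ,
    ← heckeBetaBar_eq_scaleF N₀ ℓ, ← heckeAlphaBar_eq_inclF (N₀ * q) ℓ,
    ← heckeBetaBar_eq_scaleF (N₀ * q) ℓ] at h
  obtain ⟨D, rfl⟩ := Pic0.mk_surjective y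
  rw [heckeOperatorAlong_eq_correspondence (N₀ * q) ℓ, heckeOperatorAlong_eq_correspondence N₀ ℓ,
    Pic0.correspondence_mk, pushAlpha_mk, pushAlpha_mk, Pic0.correspondence_mk]
  congr 1
  apply Subtype.ext
  rw [coe_pushDegZero, Pic0.coe_degZeroCorrespondence, Pic0.coe_degZeroCorrespondence,
    coe_pushDegZero]
  exact pushforward_correspondence_of_commData h (isIntegral_bar _) (isIntegral_bar _)
    (isIntegral_bar _) (isIntegral_bar _) (isIntegral_bar _) (isIntegral_bar _) D.1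

/-- **(N-DM1, α)** -/
theorem pushAlphaHecke : PushAlphaHecke := by
  intro N₀ q _ _ _ hq ℓ hℓ y
  haveI : NeZero (ℓ : ℕ) := ⟨ℓ.2.ne_zero⟩
  have hqℓ : q ≠ (ℓ : ℕ) := fun hc => hℓ (hc ▸ Dvd.intro_left N₀ rfl)
  rw [heckeOperatorBar_apply, heckeOperatorBar_apply]
  exact pushAlpha_heckeOperatorAlong N₀ q ℓ hq ℓ.2 hqℓ y

end Fermat.Agent.S36B
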