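/-
Cluster G (S36), BRIDGE, final wiring (helper36).

`s36Statement_of_coreOdd : CoreOdd → S36Statement`: the frozen statement of S36 (as the Prop
`S36Statement` of `S36/Bridge/Endgame.lean`) from (CORE) at the primes `lam ≠ 2`:

  `CoreOdd` : for all primes `lam ≠ 2`, `q ≠ lam` and all levels `M` with `q² ∥ M`:
              `CoreAt lam M q`  (`S36/Bridge/Defs.lean`).

Everything else of the bridge is unconditional: the eigen-lattice (S30/S35), Kolchin on the
lattice (helper8), the newness of the eigen-class (`newLevel`, `κ` trick) and the commutation of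
the degeneracy maps with the Hecke operators (helper17, helper86).
-/
import Mathlib
import Fermat.Agent.S36.Bridge.Lattice
import Fermat.Agent.S36.Bridge.PushAlphaHecke

set_option autoImplicit false
set_option linter.unusedSectionVars false
set_option linter.style.haveILetI false

noncomputable section

namespace Fermat.Agent.S36B

open ModularCurve AlgebraicCurve CongruenceSubgroup IsLocalRing
open Fermat.Agent.F3 Fermat.Agent.F3EC Fermat.Agent.F3Deg Fermat.Agent.F3DegW Fermat.Agent.LDeg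
open Fermat.Agent.S35
open Fermat.Agent.AtkinLehner (ALData)
open scoped TensorProduct

/-- **(CORE)** as consumed by S36: at the primes `lam ≠ 2`. -/
def CoreOdd : Prop :=
  ∀ (lam M q : ℕ) [NeZero M] [NeZero q] [NeZero (M / q)], lam.Prime → lam ≠ 2 → q.Prime →
    q ≠ lam → M.factorization q = 2 → CoreAt lam M q

theorem coreOdd_of_coreAll (h : CoreAll) : CoreOdd :=
  fun lam M q _ _ _ hlam _ hq hql hq2 => h lam M q hlam hq hql hq2

variable {M p : ℕ} [NeZero M]

/-- **`hcore`**: (CORE) for the kernel map `sqU`, from (CORE) at the fixed `p`, `M`. -/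
theorem coreFor_sqU_of
    (hcore : ∀ (q : ℕ) [NeZero q] [NeZero (M / q)], q.Prime → q ≠ p →
      M.factorization q = 2 → CoreAt p M q) : CoreFor p M (sqU M p) := by
  intro q hq hqp hq2
  set i : SqIdx M p := ⟨q, hq, hqp, hq2⟩ with hi
  haveI := i.neZero_q
  haveI := i.neZero_N
  obtain ⟨c, hc, P, hP, hcP⟩ :=
    hcore q hq hqp hq2 i.data i.data_Q i.level_eq_data i.level_eq
  refine ⟨c, hc, P, hP, fun n y hy huy hfix => ?_⟩
  have h12 := (sqU_eq_zero_iff y).mp huy i
  exact hcP n y hy h12.1 h12.2 hfix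

/-- **the lattice input of S36 from (CORE) at `lam ≠ 2`.** -/
theorem s36LatticeInput_of_coreOdd (hcore : CoreOdd) : S36LatticeInput := by
  intro M _ g hg lam _ S O' _ _ _ _ _ _ hlamO' hlam2 chig hchig iota hlamS hMS
  have hp : lam.Prime := Fact.out
  have hMS' : ∀ q : ℕ, q.Prime → q ∣ M → q ∈ (↑S : Set ℕ) := fun q hq hqM =>
    Finset.mem_coe.mpr (hMS q hq hqM)
  obtain ⟨x₀, hx₀, hx⟩ :=
    Fermat.Agent.F3EP.exists_eigenvector_homPar' hMS' (iota.comp chig.rangeRestrict)
  have hpu : ¬ IsUnit (lam : O') := fun hu => (IsLocalRing.mem_maximalIdeal _).mp hlamO' hu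
  exact exists_frobLattice_nofix M
    (Fermat.Agent.F3TF.torsionFinite M)
    (Fermat.Agent.GaussInt.torsionUnramified_of_keyLemmaAt
      (Fermat.Agent.GaussInt.keyLemmaAt_all M))
    (Fermat.Agent.GaussIntFP.torsionFrobQuadratic_of_keyLemmaAt
      (Fermat.Agent.GaussInt.keyLemmaAt_all M) (Fermat.Agent.F3W.heckeInputs_all M))
    (Fermat.Agent.F3.torsionOpenStab M) (Fermat.Agent.F3G.heckeGaloisComm M)
    lam S hlamS hMS O' hlamO' (iota.comp chig.rangeRestrict)
    (newClass M lam O' x₀)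
    (newClass_ne_zero hp hpu hx₀)
    (fun n => newClass_compat hp x₀ n)
    (fun n ℓ hℓ hℓN hℓS => newClass_eig ⟨ℓ, hℓ⟩ hℓN (hx ℓ hℓ hℓN hℓS) n)
    (sqU M lam)
    (fun σ y h => sqU_smul σ y h)
    (fun n => sqU_newClass pushAlphaHecke g hg S hMS O' chig hchig iota x₀ hx n)
    (coreFor_sqU_of fun q _ _ hq hql hq2 => hcore lam M q hp hlam2 hq hql hq2)

/-- **S36 from (CORE) at `lam ≠ 2`.** -/
theorem s36Statement_of_coreOdd (hcore : CoreOdd) : S36Statement :=
  s36Statement_of_lattice Fermat.Agent.F3.frobDensityLite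
    (fun p _ 𝒪 _ _ _ _ _ _ hp => ⟨Fermat.Agent.Cyclo.cycloCharData (p := p) (𝒪 := 𝒪) hp⟩)
    (s36LatticeInput_of_coreOdd hcore)

end Fermat.Agent.S36B
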