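/-
Cluster G (S36), bridge, seat N-KS (helper2): **the Kummer map `κ_{p^k}` is onto the torsion**.

`kappaC N (p ^ k) : Hom_par(Γ₀(N), ℤ) → J₀(N)(ℚ̄)[p^k]` is surjective, for every prime `p`, every
`k` and every level `N`.

Proof: the kernel of `κ_n` is `n · Hom_par` (`F3Deg.kappaC_ker`), so the image has at least
`n ^ r` elements, `r = rank Hom_par = 2 g` (`EKp.lb_pow_finrank_le_card`,
`EKp.lb_finrank_homPar_eq_genus`); the torsion has exactly `p ^ (2 g k)` elements (S27, in the
form `card_torsion_of_bounds` for `IsRRField`, with `RRMod.isRRField_bar`).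
-/
import Mathlib
import Fermat.Agent.E.Desc.Kp.TorsLB
import Fermat.Agent.S27.Wrap
import Fermat.Agent.S27.Lift.Final
import Fermat.Agent.S27.Red.Construct
import Fermat.Agent.Lib.RR.OfModularBar

set_option autoImplicit false
set_option linter.unusedSectionVars false
set_option linter.style.haveILetI false

noncomputable section

namespace Fermat.Agent.S36B

open ModularCurve AlgebraicCurve CongruenceSubgroup
open Fermat.Agent.F3EC Fermat.Agent.F3Deg Fermat.Agent.EKp

local notation "Qb" => AlgebraicClosure ℚ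

variable (N : ℕ) [NeZero N]

/-- the `n`-torsion of `J₀(N)(ℚ̄)` is finite. -/
theorem ks_finite_Jtors {n : ℕ} (hn : 0 < n) : Finite (Fermat.Agent.F3.Jtors N n) := by
  have hfin := Fermat.Agent.F3TF.torsionFinite N n hn
  have e : (↑(Fermat.Agent.F3.Jtors N n) : Set (JZero N)) = {x : JZero N | n • x = 0} := by
    ext x
    simp only [SetLike.mem_coe, Submodule.mem_torsionBy_iff, Set.mem_ofPred_eq, natCast_zsmul]
  exact (e ▸ hfin).to_subtype

/-- **S27 for `J₀(N)`**: `# J₀(N)(ℚ̄)[p^k] = p ^ (2 g k)`. -/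
theorem ks_card_Jtors {p : ℕ} (hp : p.Prime) (k : ℕ) :
    Nat.card (Fermat.Agent.F3.Jtors N (p ^ k))
      = p ^ (2 * genusFF Qb ↥(modularFunctionFieldBar N) * k) := by
  have h := Fermat.Agent.S27.card_torsion_of_bounds Fermat.Agent.S27.torsionUpper_final
    (Fermat.Agent.S27.torsionLower_of_construction Fermat.Agent.S27.construction)
    Qb ↥(modularFunctionFieldBar N) (Fermat.Agent.RRMod.isRRField_bar N) p hp k
  rw [← h]
  refine Nat.card_congr (Equiv.subtypeEquivRight fun x => ?_)
  rw [Pic0.mem_torsion]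
  exact Submodule.mem_torsionBy_iff _ _

/-- the image of `κ_n` has at least `n ^ (2 g)` elements. -/
theorem ks_le_card_range {n : ℕ} (hn : 0 < n) :
    n ^ (2 * genusFF Qb ↥(modularFunctionFieldBar N))
      ≤ Nat.card (LinearMap.range (kappaC N n)) := by
  haveI := ks_finite_Jtors N hn
  haveI : Finite (LinearMap.range (kappaC N n)) := Finite.of_injective
    (fun x : LinearMap.range (kappaC N n) => (x : Fermat.Agent.F3.Jtors N n))
    Subtype.val_injective
  rw [← lb_finrank_homPar_eq_genus]
  refine lb_pow_finrank_le_card (kappaC N n).rangeRestrict.toAddMonoidHom (fun c hc => ?_)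
  apply kappaC_ker hn
  have h1 := congrArg (fun x : LinearMap.range (kappaC N n) =>
    (x : Fermat.Agent.F3.Jtors N n)) hc
  exact h1

/-- **(N-KS)** the Kummer map `κ_{p^k}` is onto `J₀(N)(ℚ̄)[p^k]`. -/
theorem kappaC_surjective {p : ℕ} (hp : p.Prime) (k : ℕ) :
    Function.Surjective (kappaC N (p ^ k)) := by
  classical
  have hn : 0 < p ^ k := pow_pos hp.pos k
  haveI := ks_finite_Jtors N hn
  have h1 := ks_le_card_range N hn
  have h2 := ks_card_Jtors N hp k
  have h3 : Nat.card (Fermat.Agent.F3.Jtors N (p ^ k))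
      ≤ Nat.card (LinearMap.range (kappaC N (p ^ k))) := by
    rw [h2]
    calc p ^ (2 * genusFF Qb ↥(modularFunctionFieldBar N) * k)
        = (p ^ k) ^ (2 * genusFF Qb ↥(modularFunctionFieldBar N)) := by
          rw [← pow_mul]
          congr 1
          ring
      _ ≤ _ := h1
  have h4 : Function.Injective
      (fun x : LinearMap.range (kappaC N (p ^ k)) => (x : Fermat.Agent.F3.Jtors N (p ^ k))) :=
    Subtype.val_injective
  have h5 : Function.Surjective
      (fun x : LinearMap.range (kappaC N (p ^ k)) => (x : Fermat.Agent.F3.Jtors N (p ^ k))) :=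
    (Function.Injective.bijective_of_nat_card_le h4 h3).2
  intro y
  obtain ⟨⟨_, c, rfl⟩, hx⟩ := h5 y
  exact ⟨c, hx⟩

/-- the same as an equality of submodules. -/
theorem range_kappaC_eq_top {p : ℕ} (hp : p.Prime) (k : ℕ) :
    LinearMap.range (kappaC N (p ^ k)) = ⊤ :=
  LinearMap.range_eq_top.2 (kappaC_surjective N hp k)

end Fermat.Agent.S36B
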