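/-
Cluster G = S36, block BR (bridge), seat "Kolchin 2x2" (helper71).

A group of unipotent automorphisms of a free module of rank `2` over a reduced ring has a common
nonzero fixed vector (Kolchin's theorem in dimension `2`, elementary):

* `kolchin_mul_eq_zero`        : `N, N₀` 2x2 matrices of trace `0` and determinant `0` over a reduced
                                 ring with `tr (N N₀) = 0`  ⟹  `N N₀ = 0`;
* `kolchin_two`                : `ρ : Γ →* End_A V`, `V` free of rank `2`, `G ≤ Γ` with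
                                 `charpoly (ρ σ) = (X - 1)²` on `G`  ⟹  `∃ x ≠ 0, ∀ σ ∈ G, ρ σ x = x`;
* `kolchin_inertia`            : the form used by the bridge (`ρ.IsUnipotentOnInertiaAt q`).
-/
import Mathlib
import Fermat.Prelude.Def_GaloisRep_LocalConditions

set_option autoImplicit false
set_option linter.unusedSimpArgs false

namespace Fermat.Agent.S36

open Polynomial Matrix

section Matrices

variable {A : Type*} [CommRing A]

/-- the coefficients of the characteristic polynomial `(X - 1)²` of a 2x2 matrix. -/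
theorem kolchin_trace_det {M : Matrix (Fin 2) (Fin 2) A}
    (h : M.charpoly = (X - 1) ^ 2) : M.trace = 2 ∧ M.det = 1 := by
  rcases subsingleton_or_nontrivial A with hs | hn
  · exact ⟨Subsingleton.elim _ _, Subsingleton.elim _ _⟩
  rw [Matrix.charpoly_fin_two] at h
  have h1 := congrArg (fun p : A[X] => p.coeff 1) h
  have h0 := congrArg (fun p : A[X] => p.coeff 0) h
  have e : ((X : A[X]) - 1) ^ 2 = X ^ 2 - C 2 * X + C 1 := by
    simp only [map_ofNat, map_one]
    ring
  simp only [e] at h1 h0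
  simp only [coeff_add, coeff_sub, coeff_X_pow, coeff_C_mul, coeff_X_one, coeff_C, coeff_X_zero,
    mul_one, mul_zero] at h1 h0
  norm_num at h1 h0
  exact ⟨h1, h0⟩

/-- entries of a 2x2 matrix of trace `0`. -/
theorem kolchin_entry_of_trace_zero {N : Matrix (Fin 2) (Fin 2) A} (ht : N.trace = 0) :
    N 1 1 = - N 0 0 := by
  rw [Matrix.trace_fin_two] at ht
  linear_combination ht

variable [IsReduced A]

/-- **the key identity**: nilpotent 2x2 matrices with `tr (N N₀) = 0` have product `0`. -/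
theorem kolchin_mul_eq_zero {N N₀ : Matrix (Fin 2) (Fin 2) A}
    (ht : N.trace = 0) (hd : N.det = 0) (ht₀ : N₀.trace = 0) (hd₀ : N₀.det = 0)
    (hT : (N * N₀).trace = 0) : N * N₀ = 0 := by
  have e11 := kolchin_entry_of_trace_zero ht
  have e11' := kolchin_entry_of_trace_zero ht₀
  rw [Matrix.det_fin_two, e11] at hd
  rw [Matrix.det_fin_two, e11'] at hd₀
  rw [Matrix.trace_fin_two] at hT
  simp only [Matrix.mul_apply, Fin.sum_univ_two, e11, e11'] at hT
  -- the four entries have square `(entry) * T`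
  have sq0 : ∀ x : A, x ^ 2 = 0 → x = 0 := fun x hx => by
    have : IsNilpotent x := ⟨2, hx⟩
    exact this.eq_zero
  ext i j
  fin_cases i <;> fin_cases j
  · apply sq0
    simp only [Fin.zero_eta, Fin.isValue, Matrix.mul_apply, Fin.sum_univ_two, Matrix.zero_apply]
    linear_combination (N 0 1 * N₀ 1 0) * hT + (-(N₀ 0 0 * N₀ 0 0)) * hd
      + (N 0 1 * N 1 0) * hd₀
  · apply sq0
    simp only [Fin.zero_eta, Fin.isValue, Fin.mk_one, Matrix.mul_apply, Fin.sum_univ_two,
      Matrix.zero_apply, e11']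
    linear_combination (-(N 0 1 * N₀ 0 1)) * hT + (-(N₀ 0 1 * N₀ 0 1)) * hd
      + (-(N 0 1 * N 0 1)) * hd₀
  · apply sq0
    simp only [Fin.zero_eta, Fin.isValue, Fin.mk_one, Matrix.mul_apply, Fin.sum_univ_two,
      Matrix.zero_apply, e11]
    linear_combination (-(N 1 0 * N₀ 1 0)) * hT + (-(N₀ 1 0 * N₀ 1 0)) * hd
      + (-(N 1 0 * N 1 0)) * hd₀
  · apply sq0
    simp only [Fin.mk_one, Fin.isValue, Matrix.mul_apply, Fin.sum_univ_two, Matrix.zero_apply,
      e11, e11']
    linear_combination (N 1 0 * N₀ 0 1) * hT + (-(N₀ 0 0 * N₀ 0 0)) * hd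
      + (N 0 1 * N 1 0) * hd₀

/-- unipotent 2x2 matrices whose product is unipotent: `(g - 1) (g₀ - 1) = 0`. -/
theorem kolchin_sub_one_mul_sub_one {g g₀ : Matrix (Fin 2) (Fin 2) A}
    (hg : g.charpoly = (X - 1) ^ 2) (hg₀ : g₀.charpoly = (X - 1) ^ 2)
    (hgg₀ : (g * g₀).charpoly = (X - 1) ^ 2) : (g - 1) * (g₀ - 1) = 0 := by
  obtain ⟨t, d⟩ := kolchin_trace_det hg
  obtain ⟨t₀, d₀⟩ := kolchin_trace_det hg₀
  obtain ⟨tt, -⟩ := kolchin_trace_det hgg₀
  have h1 : (1 : Matrix (Fin 2) (Fin 2) A).trace = 2 := by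
    rw [Matrix.trace_one]
    simp
  have ht : (g - 1).trace = 0 := by rw [Matrix.trace_sub, t, h1, sub_self]
  have ht₀ : (g₀ - 1).trace = 0 := by rw [Matrix.trace_sub, t₀, h1, sub_self]
  have hdet : ∀ M : Matrix (Fin 2) (Fin 2) A, M.trace = 2 → M.det = 1 → (M - 1).det = 0 := by
    intro M hM1 hM2
    rw [Matrix.trace_fin_two] at hM1
    rw [Matrix.det_fin_two] at hM2 ⊢
    simp only [Matrix.sub_apply, Matrix.one_apply_eq, Matrix.one_apply_ne, ne_eq, zero_ne_one,
      one_ne_zero, not_false_eq_true, sub_zero, Fin.isValue]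
    linear_combination hM2 - hM1
  have hT : ((g - 1) * (g₀ - 1)).trace = 0 := by
    have e : (g - 1) * (g₀ - 1) = g * g₀ - g - g₀ + 1 := by noncomm_ring
    rw [e, Matrix.trace_add, Matrix.trace_sub, Matrix.trace_sub, tt, t, t₀, h1]
    ring
  exact kolchin_mul_eq_zero ht (hdet g t d) ht₀ (hdet g₀ t₀ d₀) hT

end Matrices

section Modules

variable {A V Γ : Type*} [CommRing A] [IsReduced A] [Nontrivial A] [AddCommGroup V] [Module A V]
  [Module.Free A V] [Module.Finite A V] [Group Γ]

/-- **Kolchin's theorem in rank `2`**: a group acting on a free module of rank `2` by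
automorphisms of characteristic polynomial `(X - 1)²` has a nonzero fixed vector. -/
theorem kolchin_two (h2 : Module.finrank A V = 2) (ρ : Γ →* Module.End A V) (G : Subgroup Γ)
    (hG : ∀ σ ∈ G, LinearMap.charpoly (ρ σ) = (X - 1) ^ 2) :
    ∃ x : V, x ≠ 0 ∧ ∀ σ ∈ G, ρ σ x = x := by
  classical
  let b : Module.Basis (Fin 2) A V := Module.finBasisOfFinrankEq A V h2
  have hcp : ∀ σ ∈ G, (LinearMap.toMatrix b b (ρ σ)).charpoly = (X - 1) ^ 2 := fun σ hσ => by
    rw [LinearMap.charpoly_toMatrix]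
    exact hG σ hσ
  by_cases hall : ∀ σ ∈ G, ρ σ = 1
  · refine ⟨b 0, b.ne_zero 0, fun σ hσ => ?_⟩
    rw [hall σ hσ]
    rfl
  · push Not at hall
    obtain ⟨σ₀, hσ₀, hne⟩ := hall
    have hne' : ρ σ₀ - 1 ≠ 0 := sub_ne_zero.mpr hne
    obtain ⟨y, hy⟩ : ∃ y : V, (ρ σ₀ - 1) y ≠ 0 := by
      by_contra hcon
      push Not at hcon
      exact hne' (LinearMap.ext hcon)
    refine ⟨(ρ σ₀ - 1) y, hy, fun σ hσ => ?_⟩
    have hprod : (LinearMap.toMatrix b b (ρ σ) - 1) * (LinearMap.toMatrix b b (ρ σ₀) - 1) = 0 := by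
      apply kolchin_sub_one_mul_sub_one (hcp σ hσ) (hcp σ₀ hσ₀)
      have h3 := hcp (σ * σ₀) (G.mul_mem hσ hσ₀)
      rw [map_mul] at h3
      rw [← LinearMap.toMatrix_mul]
      exact h3
    have hprod' : (ρ σ - 1) * (ρ σ₀ - 1) = 0 := by
      apply (LinearMap.toMatrix b b).injective
      rw [LinearMap.toMatrix_mul, map_sub, map_sub, LinearMap.toMatrix_one, map_zero]
      exact hprod
    have h4 := LinearMap.congr_fun hprod' y
    simp only [Module.End.mul_apply, LinearMap.sub_apply, Module.End.one_apply,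
      LinearMap.zero_apply] at h4 ⊢
    exact sub_eq_zero.mp h4

end Modules

section Galois

variable {A : Type} [CommRing A] [IsLocalRing A] [IsReduced A]

/-- **Kolchin for the bridge**: a representation which is unipotent on inertia at `q` has, for
every place `P` over `q`, a nonzero vector fixed by the inertia group of `P`. -/
theorem kolchin_inertia (ρ : GaloisRepAdic A) (q : ℕ)
    (h : ρ.IsUnipotentOnInertiaAt q) (P : ValuationSubring (AlgebraicClosure ℚ))
    (hP : P.LiesOverPrime q) :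
    ∃ x : ρ.V, x ≠ 0 ∧ ∀ σ ∈ P.inertiaSubgroupIn ℚ, ρ.ρ σ x = x :=
  kolchin_two ρ.finrank_eq ρ.ρ (P.inertiaSubgroupIn ℚ) (h P hP)

end Galois

end Fermat.Agent.S36
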