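/-
Cluster G (S36), BRIDGE (helper36): the kernel condition `hux` from the newness inputs.

`newClass_push_eq_zero`: for a newform `g` of level `M`, a proper divisor `N₁ ∣ M` and an additive
map `π : J₀(M) → J₀(N₁)` commuting with the Hecke operators `T_ℓ` (`ℓ ∤ M`), the explicit
eigen-class `newClass M p O x₀ n` of an eigenvector `x₀ ∈ O ⊗ Hom_par(Γ₀(M), ℤ)` of the
character of `g` is killed by `O ⊗ π`.   Input: `EigenTateZero` (N-LIM).
-/
import Mathlib
import Fermat.Agent.S36.Bridge.Defs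
import Fermat.Agent.S35.EigenNew

set_option autoImplicit false
set_option linter.unusedSectionVars false
set_option linter.style.haveILetI false

noncomputable section

namespace Fermat.Agent.S36B

open ModularCurve AlgebraicCurve CongruenceSubgroup IsLocalRing
open Fermat.Agent.F3 Fermat.Agent.F3EC Fermat.Agent.F3Deg Fermat.Agent.F3DegW
open Fermat.Agent.S35
open scoped TensorProduct

variable {M N₁ : ℕ} [NeZero M] [NeZero N₁]

/-- an additive map `J₀(M) → J₀(N₁)` restricted to the `n`-torsion. -/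
def torsMap (π : JZero M →+ JZero N₁) (n : ℕ) : Jtors M n →ₗ[ℤ] Jtors N₁ n :=
  (π.toIntLinearMap).restrict (p := Jtors M n) (q := Jtors N₁ n) (by
    intro x hx
    rw [Submodule.mem_torsionBy_iff] at hx ⊢
    rw [← map_zsmul (π.toIntLinearMap), hx, map_zero])

@[simp] theorem torsMap_coe (π : JZero M →+ JZero N₁) (n : ℕ) (y : Jtors M n) :
    ((torsMap π n y : Jtors N₁ n) : JZero N₁) = π (y : JZero M) := rfl

theorem subtype_comp_torsMap (π : JZero M →+ JZero N₁) (n : ℕ) :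
    (Jtors N₁ n).subtype ∘ₗ torsMap π n = π.toIntLinearMap ∘ₗ (Jtors M n).subtype :=
  LinearMap.ext fun _ => rfl

/-- base change of a composition, applied. -/
theorem bc_comp_apply {O : Type*} [CommRing O] {A B C : Type*} [AddCommGroup A] [Module ℤ A]
    [AddCommGroup B] [Module ℤ B] [AddCommGroup C] [Module ℤ C]
    (f : B →ₗ[ℤ] C) (g : A →ₗ[ℤ] B) (x : O ⊗[ℤ] A) :
    f.baseChange O (g.baseChange O x) = (f ∘ₗ g).baseChange O x := by
  rw [LinearMap.baseChange_comp]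
  rfl

theorem mulPTors_comp_torsMap (π : JZero M →+ JZero N₁) (p n : ℕ) :
    Fermat.Agent.S30.mulPTors N₁ p n ∘ₗ torsMap π (p ^ (n + 1)) =
      torsMap π (p ^ n) ∘ₗ Fermat.Agent.S30.mulPTors M p n := by
  refine LinearMap.ext fun y => Subtype.ext ?_
  show (p : ℤ) • π (y : JZero M) = π ((p : ℤ) • (y : JZero M))
  rw [map_zsmul]

theorem heckeTors_comp_torsMap (π : JZero M →+ JZero N₁) (n : ℕ) (ℓ : Nat.Primes)
    (hπ : ∀ y : JZero M, π (heckeOperatorBar M ℓ y) = heckeOperatorBar N₁ ℓ (π y)) :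
    heckeTors N₁ n ℓ ∘ₗ torsMap π n = torsMap π n ∘ₗ heckeTors M n ℓ := by
  refine LinearMap.ext fun y => Subtype.ext ?_
  show heckeOperatorBar N₁ ℓ (π (y : JZero M)) = π (heckeOperatorBar M ℓ (y : JZero M))
  exact (hπ _).symm

/-- **`hux` for one map.** -/
theorem newClass_push_eq_zero (hETZ : EigenTateZero) (hdvd : N₁ ∣ M) (hne : N₁ ≠ M)
    (g : CuspForm (Gamma0 M) 2) (hg : g.IsNewform) {p : ℕ} (hp : p.Prime)
    (S : Finset ℕ) (hS : ∀ r : ℕ, r.Prime → r ∣ M → r ∈ S)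
    (O : Type) [CommRing O] [IsDomain O] [IsDiscreteValuationRing O]
    [IsAdicComplete (maximalIdeal O) O] [CharZero O] (hpO : (p : O) ∈ maximalIdeal O)
    (chig : CuspForm.heckeAlgebra M 2 (↑S : Set ℕ) →+* ℂ)
    (hchig : ∀ (ℓ : ℕ) (hℓ : ℓ.Prime) (hℓM : ¬ ℓ ∣ M) (hℓS : ℓ ∉ (↑S : Set ℕ)),
      chig (CuspForm.heckeAlgebra.T hℓ hℓM hℓS) = ModularFormClass.qCoeff g ℓ)
    (iota : chig.range →+* O) (x₀ : O ⊗[ℤ] HomPar M)
    (hx : ∀ (ℓ : ℕ) (hℓ : ℓ.Prime) (hℓM : ¬ ℓ ∣ M) (hℓS : ℓ ∉ (↑S : Set ℕ)),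
      (heckeHom M ⟨ℓ, hℓ⟩).baseChange O x₀ =
        (iota.comp chig.rangeRestrict) (CuspForm.heckeAlgebra.T hℓ hℓM hℓS) • x₀)
    (π : JZero M →+ JZero N₁)
    (hπ : ∀ (ℓ : Nat.Primes), ¬ (ℓ : ℕ) ∣ M → ∀ y : JZero M,
      π (heckeOperatorBar M ℓ y) = heckeOperatorBar N₁ ℓ (π y)) (n : ℕ) :
    (π.toIntLinearMap ∘ₗ (Jtors M (p ^ n)).subtype).baseChange O (newClass M p O x₀ n) = 0 := by
  have hcompat : ∀ n, (Fermat.Agent.S30.mulPTors N₁ p n).baseChange O
      ((torsMap π (p ^ (n + 1))).baseChange O (newClass M p O x₀ (n + 1))) =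
      (torsMap π (p ^ n)).baseChange O (newClass M p O x₀ n) := by
    intro n
    have h1 := bc_comp_apply (O := O) (Fermat.Agent.S30.mulPTors N₁ p n)
      (torsMap π (p ^ (n + 1))) (newClass M p O x₀ (n + 1))
    have h2 := bc_comp_apply (O := O) (torsMap π (p ^ n)) (Fermat.Agent.S30.mulPTors M p n)
      (newClass M p O x₀ (n + 1))
    have h3 := newClass_compat (O := O) hp x₀ n
    exact h1.trans ((congrArg (fun f => LinearMap.baseChange O f (newClass M p O x₀ (n + 1)))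
      (mulPTors_comp_torsMap π p n)).trans (h2.symm.trans (congrArg _ h3)))
  have heig : ∀ (n ℓ : ℕ) (hℓ : ℓ.Prime) (hℓM : ¬ ℓ ∣ M) (hℓS : ℓ ∉ (↑S : Set ℕ)),
      (heckeTors N₁ (p ^ n) ⟨ℓ, hℓ⟩).baseChange O
        ((torsMap π (p ^ n)).baseChange O (newClass M p O x₀ n)) =
        (iota.comp chig.rangeRestrict) (CuspForm.heckeAlgebra.T hℓ hℓM hℓS) •
          (torsMap π (p ^ n)).baseChange O (newClass M p O x₀ n) := by
    intro n ℓ hℓ hℓM hℓS
    have h1 := bc_comp_apply (O := O) (heckeTors N₁ (p ^ n) ⟨ℓ, hℓ⟩)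
      (torsMap π (p ^ n)) (newClass M p O x₀ n)
    have h2 := bc_comp_apply (O := O) (torsMap π (p ^ n)) (heckeTors M (p ^ n) ⟨ℓ, hℓ⟩)
      (newClass M p O x₀ n)
    have h3 := newClass_eig (O := O) (p := p) ⟨ℓ, hℓ⟩ hℓM (hx ℓ hℓ hℓM hℓS) n
    exact h1.trans ((congrArg (fun f => LinearMap.baseChange O f (newClass M p O x₀ n))
      (heckeTors_comp_torsMap π (p ^ n) ⟨ℓ, hℓ⟩ (hπ ⟨ℓ, hℓ⟩ hℓM))).trans
        (h2.symm.trans ((congrArg _ h3).trans (map_smul _ _ _))))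
  have h0 := hETZ M N₁ hdvd hne g hg p hp S hS O hpO chig hchig iota
    (fun n => (torsMap π (p ^ n)).baseChange O (newClass M p O x₀ n)) hcompat heig n
  have h1 : (torsMap π (p ^ n)).baseChange O (newClass M p O x₀ n) = 0 := h0
  have h2 := bc_comp_apply (O := O) (Jtors N₁ (p ^ n)).subtype (torsMap π (p ^ n))
    (newClass M p O x₀ n)
  exact (congrArg (fun f => LinearMap.baseChange O f (newClass M p O x₀ n))
    (subtype_comp_torsMap π (p ^ n)).symm).trans (h2.symm.trans ((congrArg _ h1).trans (map_zero _)))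

end Fermat.Agent.S36B
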